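/-
PROJECT R (S43, row 37), block L1, LEVEL ZERO ON `J₀(N)` (helper8, chief R), file `Rho/Zero/Inst`:
**THE DENSITY DATUM ON `O ⊗ T_p J₀(N)` LOCALISED AT A MAXIMAL IDEAL OF THE POLYNOMIAL HECKE
ALGEBRA** (twin of helper27's `Rho/Feed/Inst` + helper22's `Rho/LamInst` on `JZero N`; the objects
are main's `S30/Padic/Assembly.rhoV`, `opVHom`, the shape helper1's `Exit/**` consumes).

`N ≥ 1`, `O` a `ℤ_[p]`-algebra, `S₀` a finite set of excluded primes (the bad primes of the integral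
model `W`: the residual eigenvalues are only known at the primes good for `W`), index set
`JZ N p S₀` = the primes not dividing `N p` and not in `S₀`, `SgZ N p S₀ = primes (N p) ∪ S₀`.

* `LamZ N p O := O ⊗[ℤ_[p]] Tp p (JZero N)`, `rZ := rhoV p O (JZero N)`,
  `tZ j := opVHom p O (JZero N) (heckeEnd N j.1)`;
* `finite_LamZ`, `free_LamZ`, `hcommZ`, `rZcomm`, `cont_rZ`, `esZ`, `unramZ`;
* `LamZQ .. 𝔪`, `TZ .. 𝔪`, `rZQ .. 𝔪`, `tZQ .. 𝔪 j`;
* `datumZ : Dens.Datum (SgZ N p S₀) (maximalIdeal O) (rZQ ..) (eps p O) (TZ ..)`: no hypothesis left;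
* `finite_LamZQ`, `free_LamZQ`, `finite_TZ`, `isMulCommutative_TZ`, `rZQ_eq_one_of_inertia`.
-/
import Mathlib
import Fermat.Agent.S43.Rho.LamInst
import Fermat.Agent.S31.TateArith
import Fermat.Agent.S30.Final.H1
import Fermat.Agent.S15.G.HeckeComm
import Fermat.Agent.S30.Descent.PhiDictThm

set_option autoImplicit false
set_option linter.unusedSectionVars false

noncomputable section

namespace Fermat.Agent.S43.Rho.Zero.Inst

open TensorProduct ModularCurve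
open Fermat.Agent.S30.Padic.TateModule Fermat.Agent.S30.Padic.Assembly
open Fermat.Agent.S30.Arith.TateInputs
open Fermat.Agent.S43.Rho.Lam Fermat.Agent.S43.Hecke.PolyModule Fermat.Agent.S43.Rho.LamDatum
open Fermat.Agent.S43.Rho.Feed.Base
open Fermat.Agent.S43.Rho.Feed.Inst (eps cont_eps frob_eps)
open Fermat.Agent.S31.Core (Qbar GQ)

variable (N : ℕ) [NeZero N] (p : ℕ) [hp : Fact p.Prime] (S₀ : Finset ℕ)
  (O : Type) [CommRing O] [Algebra ℤ_[p] O]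

/-- the index set of the Hecke operators: the primes not dividing `N p` and not in `S₀` -/
abbrev JZ : Type :=
  {r : Nat.Primes // (r : ℕ).Coprime N ∧ (r : ℕ) ≠ p ∧ (r : ℕ) ∉ S₀}

/-- the excluded primes -/
def SgZ : Finset ℕ := (N * p).primeFactors ∪ S₀

theorem of_notMem_SgZ {ℓ : ℕ} (hℓ : ℓ.Prime) (hℓS : ℓ ∉ SgZ N p S₀) :
    ℓ.Coprime N ∧ ℓ ≠ p ∧ ℓ ∉ S₀ := by
  have hNp : N * p ≠ 0 := mul_ne_zero (NeZero.ne N) hp.out.ne_zero
  rw [SgZ, Finset.mem_union, not_or] at hℓS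
  have h1 : ¬ ℓ ∣ N * p := fun hd => hℓS.1 (Nat.mem_primeFactors.mpr ⟨hℓ, hd, hNp⟩)
  refine ⟨(Nat.Prime.coprime_iff_not_dvd hℓ).mpr fun hd => h1 (Dvd.dvd.mul_right hd p), ?_, hℓS.2⟩
  rintro rfl
  exact h1 (Dvd.intro_left N rfl)

/-- the Tate module of `J₀(N)` with coefficients in `O` -/
abbrev LamZ : Type := O ⊗[ℤ_[p]] Tp p (JZero N)

/-- the Galois action (main's `rhoV`) -/
def rZ : GQ →* Module.End O (LamZ N p O) := rhoV p O (JZero N)

/-- the Hecke operators `T_r`, `r ∤ N p` (main's `opVHom`) -/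
def tZ : JZ N p S₀ → Module.End O (LamZ N p O) := fun j => opVHom p O (JZero N) (heckeEnd N j.1)

theorem rZ_apply (σ : GQ) :
    rZ N p O σ = bc ℤ_[p] O (Tp p (JZero N)) (Tp.galoisHom (p := p) (J := JZero N) GQ σ) := rfl

theorem tZ_apply (j : JZ N p S₀) :
    tZ N p S₀ O j = bc ℤ_[p] O (Tp p (JZero N)) (Tp.mapEnd (p := p) (heckeEnd N j.1)) := rfl

theorem finite_torsion : {y : JZero N | p • y = 0}.Finite :=
  Fermat.Agent.S30.Descent.PhiDictThm.finite_torsion N hp.out.ne_zero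

theorem finite_LamZ : Module.Finite O (LamZ N p O) := by
  have : Module.Finite ℤ_[p] (Tp p (JZero N)) := Tp.finite_of_finite (finite_torsion N p)
  infer_instance

theorem free_LamZ : Module.Free O (LamZ N p O) := by
  have : Module.Free ℤ_[p] (Tp p (JZero N)) := Tp.free_of_finite (finite_torsion N p)
  infer_instance

theorem not_dvd_of_J (j : JZ N p S₀) : ¬ ((j.1 : ℕ) ∣ N) := fun h =>
  (Nat.Prime.coprime_iff_not_dvd j.1.2).mp j.2.1 h

theorem hcommZ (i j : JZ N p S₀) : Commute (tZ N p S₀ O i) (tZ N p S₀ O j) :=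
  commute_bc O (Fermat.Agent.S15.G.HeckeComm.commute_mapEnd_mapEnd N p i.1 j.1
    (Or.inl ⟨not_dvd_of_J N p S₀ i, i.2.2.1⟩))

theorem rZcomm (g : GQ) (j : JZ N p S₀) : Commute (rZ N p O g) (tZ N p S₀ O j) :=
  commute_bc O (Fermat.Agent.S31.TateArith.commute_mapEnd N p j.1 g).symm

/-- **`cont_r`** -/
theorem cont_rZ (I₀ : Ideal O) (hpI : (p : O) ∈ I₀) (n : ℕ) :
    ∃ L : IntermediateField ℚ Qbar, FiniteDimensional ℚ L ∧
      ∀ u : GQ, (∀ x ∈ L, u x = x) → ∀ v : LamZ N p O,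
        rZ N p O u v - v ∈ (I₀ ^ n) • (⊤ : Submodule O (LamZ N p O)) := by
  obtain ⟨L, hL, h⟩ := Fermat.Agent.S31.TateArith.cont N p (finite_torsion N p) n
  refine ⟨L, hL, fun u hu v => ?_⟩
  refine cont_bc O (Ideal.span {(p : ℤ_[p])}) I₀ (map_span_singleton_le O ?_) n (h u hu) v
  rw [map_natCast]
  exact hpI

/-- **Eichler–Shimura over `O`** -/
theorem esZ (j : JZ N p S₀) (A : ValuationSubring Qbar) (hA : A.LiesOverPrime (j.1 : ℕ)) (τ : GQ)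
    (hτ : A.IsFrobeniusAt τ (j.1 : ℕ)) :
    rZ N p O τ * rZ N p O τ - tZ N p S₀ O j * rZ N p O τ +
      (((j.1 : ℕ) : ℕ) : Module.End O (LamZ N p O)) = 0 :=
  es_bc O (Fermat.Agent.S31.TateArith.eichlerShimura N p
    (Fermat.Agent.S30.Final.H1.hasReductionAll N p) (j.1 : ℕ) j.1.2 (not_dvd_of_J N p S₀ j) j.2.2.1
    A hA τ hτ)

/-- inertia at `ℓ ∤ N p` acts trivially -/
theorem unramZ (ℓ : ℕ) (hℓ : ℓ.Prime) (hℓN : ¬ ℓ ∣ N) (hℓp : ℓ ≠ p)
    (A : ValuationSubring Qbar) (hA : A.LiesOverPrime ℓ) (σ : GQ)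
    (hσ : σ ∈ A.inertiaSubgroupIn ℚ) : rZ N p O σ = 1 :=
  eq_one_bc O (Fermat.Agent.S31.TateArith.unram N p
    (Fermat.Agent.S30.Final.H1.hasReductionAll N p) ℓ hℓ hℓN hℓp A hA σ hσ)

/-! ### the localisation -/

variable (𝔪 : Ideal (MvPolynomial (JZ N p S₀) O)) [𝔪.IsMaximal]

/-- the Tate module localised at `𝔪` -/
abbrev LamZQ : Type := Loc 𝔪 (WithOps (tZ N p S₀ O) (hcommZ N p S₀ O))

/-- its Hecke algebra -/
abbrev TZ : Subalgebra O (Module.End O (LamZQ N p S₀ O 𝔪)) :=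
  T O 𝔪 (WithOps (tZ N p S₀ O) (hcommZ N p S₀ O))

/-- its Galois action -/
def rZQ : GQ →* Module.End O (LamZQ N p S₀ O 𝔪) :=
  rLam O (tZ N p S₀ O) (hcommZ N p S₀ O) 𝔪 (rZ N p O) (rZcomm N p S₀ O)

/-- the transport of relations from the commutant of the `T_r` -/
abbrev locZ : Comm O (tZ N p S₀ O) →+* Module.End O (LamZQ N p S₀ O 𝔪) :=
  locComm O (tZ N p S₀ O) (hcommZ N p S₀ O) 𝔪

theorem rZQ_apply (g : GQ) :
    rZQ N p S₀ O 𝔪 g = locZ N p S₀ O 𝔪 (rC O (tZ N p S₀ O) (rZ N p O) (rZcomm N p S₀ O) g) := rfl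

/-- **the density datum of level zero** -/
theorem datumZ [IsLocalRing O] [IsNoetherianRing O]
    [IsAdicComplete (IsLocalRing.maximalIdeal O) O]
    (hpO : (p : O) ∈ IsLocalRing.maximalIdeal O) :
    Dens.Datum (SgZ N p S₀) (IsLocalRing.maximalIdeal O) (rZQ N p S₀ O 𝔪) (eps p O) (TZ N p S₀ O 𝔪) := by
  have := finite_LamZ N p O
  have := free_LamZ N p O
  refine LamMain.datum O (tZ N p S₀ O) (hcommZ N p S₀ O) 𝔪 (SgZ N p S₀) _
    (Ideal.IsPrime.ne_top inferInstance) (rZ N p O) (rZcomm N p S₀ O) (eps p O)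
    (cont_rZ N p O _ hpO) (cont_eps p O _ hpO) ?_ ?_
  · intro ℓ hℓ hℓS A hA τ hτ
    exact frob_eps p O hℓ (of_notMem_SgZ N p S₀ hℓ hℓS).2.1 A hA τ hτ
  · intro ℓ hℓ hℓS A hA τ hτ
    obtain ⟨h1, h2, h3⟩ := of_notMem_SgZ N p S₀ hℓ hℓS
    exact ⟨⟨⟨ℓ, hℓ⟩, h1, h2, h3⟩, esZ N p S₀ O ⟨⟨ℓ, hℓ⟩, h1, h2, h3⟩ A hA τ hτ⟩

section finiteness

variable [IsLocalRing O] [IsNoetherianRing O] [IsAdicComplete (IsLocalRing.maximalIdeal O) O]

theorem finite_LamZQ : Module.Finite O (LamZQ N p S₀ O 𝔪) := by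
  have := finite_LamZ N p O
  exact LamMain.finite_loc O (tZ N p S₀ O) (hcommZ N p S₀ O) 𝔪

theorem free_LamZQ : Module.Free O (LamZQ N p S₀ O 𝔪) := by
  have := finite_LamZ N p O
  have := free_LamZ N p O
  exact LamMain.free_loc O (tZ N p S₀ O) (hcommZ N p S₀ O) 𝔪

theorem finite_TZ : Module.Finite O (TZ N p S₀ O 𝔪) := by
  have := finite_LamZ N p O
  exact LamMain.finite_T O (tZ N p S₀ O) (hcommZ N p S₀ O) 𝔪

/-- every element of the localisation is the class of an element of `O ⊗ T_p J₀(N)` -/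
theorem mk_surjective (v : LamZQ N p S₀ O 𝔪) :
    ∃ x : WithOps (tZ N p S₀ O) (hcommZ N p S₀ O), LocalizedModule.mk x 1 = v := by
  have := finite_LamZ N p O
  obtain ⟨x, hx⟩ := LamMain.mk_surjective O (tZ N p S₀ O) (hcommZ N p S₀ O) 𝔪 v
  exact ⟨x, hx⟩

end finiteness

theorem isMulCommutative_TZ : IsMulCommutative (TZ N p S₀ O 𝔪) := ⟨⟨mul_comm⟩⟩

/-- the Hecke operator `T_r` as an element of the Hecke algebra -/
def tZQ (j : JZ N p S₀) : TZ N p S₀ O 𝔪 :=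
  ofP O 𝔪 (WithOps (tZ N p S₀ O) (hcommZ N p S₀ O)) (MvPolynomial.X j)

theorem coe_tZQ (j : JZ N p S₀) :
    ((tZQ N p S₀ O 𝔪 j : TZ N p S₀ O 𝔪) : Module.End O (LamZQ N p S₀ O 𝔪)) =
      locZ N p S₀ O 𝔪 ⟨tZ N p S₀ O j, t_mem_Comm O _ (hcommZ N p S₀ O) j⟩ :=
  (locComm_t O (tZ N p S₀ O) (hcommZ N p S₀ O) 𝔪 j).symm

/-- inertia at `ℓ ∤ N p` acts trivially on the localisation (also at the primes of `S₀`) -/
theorem rZQ_eq_one_of_inertia {ℓ : ℕ} (hℓ : ℓ.Prime) (hℓN : ¬ ℓ ∣ N) (hℓp : ℓ ≠ p)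
    (A : ValuationSubring Qbar) (hA : A.LiesOverPrime ℓ) (σ : GQ)
    (hσ : σ ∈ A.inertiaSubgroupIn ℚ) : rZQ N p S₀ O 𝔪 σ = 1 := by
  have h3 : rC O (tZ N p S₀ O) (rZ N p O) (rZcomm N p S₀ O) σ = 1 :=
    Subtype.ext (unramZ N p O ℓ hℓ hℓN hℓp A hA σ hσ)
  rw [rZQ_apply, h3, map_one]

end Fermat.Agent.S43.Rho.Zero.Inst
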