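/-
PROJECT R (S43, row 37), block L1 / level zero, file `Rho/Zero/Bridge` (helper6; the chief's cut
#6475 (4)): THE BRIDGE AT LEVEL ZERO.

`LamZ = O ⊗ T_p J₀(N)` with the Hecke operators `T_r` (`r ∤ N p`, `r ∉ S₀`), localised at a
non-Eisenstein system of eigenvalues `θ`, is `Hom(Γ₀(N), O)_θ = M0` (helper24's level-zero module),
compatibly with the polynomial Hecke algebra; hence an `O`-algebra map
`b₀ : TZ → End_O M0` with `b₀ (T_r) = X_r •`.

* `bcEquiv`, `bcEquiv_baseChange` : base change along `A → B` of a comparison `X ≃ A ⊗[ℤ] L`;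
* `exists_tate_equiv_O` : `O ⊗ T_p J₀(N) ≃ₗ[O] Hom_par(Γ₀(N), O)`, Hecke equivariant at all primes
  (main's `TateCompare.h3_of_phiDict`, `TateChar.tateLattice`, `Lattice.BaseChange`);
* `exists_jL_abs`, `exists_bridge_abs`, `exists_b0_abs`, `exists_b0_strong_abs` : the bridge for an
  abstract `O`-module `Λ` with commuting operators compared with `Hom_par(Γ₀(N), O)` (helper2's
  `ParLoc.locEquiv0`, helper24's `Bridge.bridgeL`); abstract so that the giant instance terms of
  `T_p J₀(N)` stay out of the unifier;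
* `exists_jL` : a bijection `M0 → LamZQ`, linear over `MvPolynomial (JZ N p S₀) O`;
* `exists_bridge` : `TZ → T(M0)` bijective, `ofP Q ↦ ofP Q`;
* `exists_b0` : the chief's literal; `exists_b0_faithful` : + `(∀ z, b₀ a z = 0) → a = 0`;
  `exists_b0_strong` : injective, image `= T(M0)`, every `Q` acts as `Q`.
-/
import Mathlib
import Fermat.Agent.S43.Rho.Zero.Inst
import Fermat.Agent.S43.Hecke.ParLoc
import Fermat.Agent.S43.Hecke.Bridge
import Fermat.Agent.S43.Hecke.Main

set_option autoImplicit false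
set_option linter.unusedSectionVars false

noncomputable section

namespace Fermat.Agent.S43.Rho.Zero.Bridge

open TensorProduct

/-! ### base change of a comparison with a lattice -/

section Abstract

variable {A : Type*} [CommRing A] (B : Type*) [CommRing B] [Algebra A B]
  {X : Type*} [AddCommGroup X] [Module A X] {L : Type*} [AddCommGroup L] [Module ℤ L]

/-- base change of a comparison `X ≃ A ⊗[ℤ] L` along `A → B` -/
def bcEquiv (ep : X ≃ₗ[A] A ⊗[ℤ] L) : B ⊗[A] X ≃ₗ[B] B ⊗[ℤ] L :=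
  (LinearEquiv.baseChange A B X (A ⊗[ℤ] L) ep) ≪≫ₗ
    AlgebraTensorModule.cancelBaseChange ℤ A B B L

theorem bcEquiv_tmul (ep : X ≃ₗ[A] A ⊗[ℤ] L) (b : B) (x : X) :
    bcEquiv B ep (b ⊗ₜ x) =
      AlgebraTensorModule.cancelBaseChange ℤ A B B L (b ⊗ₜ ep x) := rfl

theorem cancel_baseChange (τ : Module.End ℤ L) (b : B) (z : A ⊗[ℤ] L) :
    AlgebraTensorModule.cancelBaseChange ℤ A B B L (b ⊗ₜ (τ.baseChange A z)) =
      τ.baseChange B (AlgebraTensorModule.cancelBaseChange ℤ A B B L (b ⊗ₜ z)) := by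
  induction z using TensorProduct.induction_on with
  | zero => rw [map_zero, tmul_zero, map_zero, map_zero]
  | tmul a l =>
    rw [LinearMap.baseChange_tmul, AlgebraTensorModule.cancelBaseChange_tmul,
      AlgebraTensorModule.cancelBaseChange_tmul, LinearMap.baseChange_tmul]
  | add z₁ z₂ h₁ h₂ => rw [map_add, tmul_add, map_add, h₁, h₂, tmul_add, map_add, map_add]

/-- the base change of the comparison intertwines the base changes of intertwined operators -/
theorem bcEquiv_baseChange (ep : X ≃ₗ[A] A ⊗[ℤ] L) (f : Module.End A X) (τ : Module.End ℤ L)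
    (h : ∀ x, ep (f x) = τ.baseChange A (ep x)) (y : B ⊗[A] X) :
    bcEquiv B ep (f.baseChange B y) = τ.baseChange B (bcEquiv B ep y) := by
  induction y using TensorProduct.induction_on with
  | zero => rw [map_zero, map_zero, map_zero]
  | tmul b x =>
    rw [LinearMap.baseChange_tmul, bcEquiv_tmul, bcEquiv_tmul, h, cancel_baseChange]
  | add y₁ y₂ h₁ h₂ => rw [map_add, map_add, h₁, h₂, map_add, map_add]

end Abstract

open CongruenceSubgroup ModularCurve ModularCurve.Period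
open Fermat.Agent.S30.Padic.TateModule Fermat.Agent.S30.Padic.Assembly
open Fermat.Agent.S30.Arith.TateInputs
open Fermat.Agent.S30.Hecke.Parabolic Fermat.Agent.S30.Lattice.BaseChange
open Fermat.Agent.S43.Hecke.PolyModule Fermat.Agent.S43.Hecke.Loc
open Fermat.Agent.S43.Rho.Lam Fermat.Agent.S43.Rho.Zero.Inst

/-! ### the comparison with coefficients in `O` -/

section Tate

variable (N : ℕ) [NeZero N] (p : ℕ) [Fact p.Prime] (O : Type) [CommRing O] [Algebra ℤ_[p] O]
  [Module.Flat ℤ O]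

/-- **the comparison** `O ⊗ T_p J₀(N) ≃ Hom_par(Γ₀(N), O)`, Hecke equivariant at all primes. -/
theorem exists_tate_equiv_O :
    ∃ Φ : (O ⊗[ℤ_[p]] Tp p (JZero N)) ≃ₗ[O] ↥(parabolicHoms O (Gamma0 N) O),
      ∀ (r : Nat.Primes) (y : O ⊗[ℤ_[p]] Tp p (JZero N)),
        Φ (opVHom p O (JZero N) (heckeEnd N r) y) = tauPar O O N r r.2 (Φ y) := by
  obtain ⟨ι⟩ := Fermat.Agent.S30.Descent.PhiDictThm.nonempty_ringHom
  have h : Fermat.Agent.S30.Spec.PhiDict N ι := Fermat.Agent.S30.Descent.PhiDictThm.phiDict N ι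
  obtain ⟨ep, H3⟩ := Fermat.Agent.S30.Final.TateCompare.h3_of_phiDict (h := h) p
    (Fermat.Agent.S30.frickeChar N)
    (fun r => Fermat.Agent.S30.Padic.TateChar.tauChar N r r.2)
    (Fermat.Agent.S30.frickeChar_hecke N h)
    (fun r => Fermat.Agent.S30.Hecke.Parabolic.tauPar ℤ ℤ N r r.2)
    (Fermat.Agent.S30.Padic.TateChar.tateLattice N p)
    (fun r x => Fermat.Agent.S30.Padic.TateChar.tateLattice_tauChar p N r r.2 x)
  refine ⟨(bcEquiv O ep).trans (baseChangeEquiv (Gamma0 N) O), fun r y => ?_⟩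
  have h4 := bcEquiv_baseChange O ep (Tp.mapEnd (heckeEnd N r)) (tauPar ℤ ℤ N r r.2) (H3 r) y
  exact (congrArg (baseChangeEquiv (Gamma0 N) O) h4).trans (baseChangeEquiv_tauPar O r r.2 _)

end Tate

/-! ### transport of the polynomial structure along an intertwining equivalence -/

section Transport

variable {R : Type*} [CommRing R] {N₁ : Type*} [AddCommGroup N₁] [Module R N₁]
  {N₂ : Type*} [AddCommGroup N₂] [Module R N₂] {J : Type*}
  (t₁ : J → Module.End R N₁) (h₁ : ∀ i j, Commute (t₁ i) (t₁ j))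
  (t₂ : J → Module.End R N₂) (h₂ : ∀ i j, Commute (t₂ i) (t₂ j))
  (Φ : N₁ ≃ₗ[R] N₂) (hΦ : ∀ j x, Φ (t₁ j x) = t₂ j (Φ x))

include hΦ in
theorem symm_intertwine (j : J) (y : N₂) : Φ.symm (t₂ j y) = t₁ j (Φ.symm y) := by
  apply Φ.injective
  rw [LinearEquiv.apply_symm_apply, hΦ, LinearEquiv.apply_symm_apply]

/-- an equivalence intertwining the operators, as a linear map over the polynomial ring -/
def mapW : WithOps t₁ h₁ →ₗ[MvPolynomial J R] WithOps t₂ h₂ :=
  WithOps.map (Φ : N₁ →ₗ[R] N₂) hΦ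

/-- the inverse, as a linear map over the polynomial ring -/
def mapWSymm : WithOps t₂ h₂ →ₗ[MvPolynomial J R] WithOps t₁ h₁ :=
  WithOps.map (Φ.symm : N₂ →ₗ[R] N₁) (symm_intertwine t₁ t₂ Φ hΦ)

theorem mapWSymm_mapW (x : WithOps t₁ h₁) :
    mapWSymm t₁ h₁ t₂ h₂ Φ hΦ (mapW t₁ h₁ t₂ h₂ Φ hΦ x) = x :=
  Φ.symm_apply_apply x

theorem mapW_mapWSymm (y : WithOps t₂ h₂) :
    mapW t₁ h₁ t₂ h₂ Φ hΦ (mapWSymm t₁ h₁ t₂ h₂ Φ hΦ y) = y :=
  Φ.apply_symm_apply y

theorem mapWSymm_bijective : Function.Bijective (mapWSymm t₁ h₁ t₂ h₂ Φ hΦ) :=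
  ⟨Function.LeftInverse.injective (mapW_mapWSymm t₁ h₁ t₂ h₂ Φ hΦ),
    Function.RightInverse.surjective (mapWSymm_mapW t₁ h₁ t₂ h₂ Φ hΦ)⟩

end Transport

/-- the localisation of a bijective linear map is bijective -/
theorem locMap_bijective {P : Type*} [CommRing P] (S : Submonoid P) {M : Type*} [AddCommGroup M]
    [Module P M] {M' : Type*} [AddCommGroup M'] [Module P M'] (f : M →ₗ[P] M')
    (hf : Function.Bijective f) : Function.Bijective (locMap S f) :=
  ⟨IsLocalizedModule.map_injective S (LocalizedModule.mkLinearMap S M)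
      (LocalizedModule.mkLinearMap S M') f hf.1, locMap_surjective S f hf.2⟩

/-! ### the bridge, for an abstract module compared with `Hom_par(Γ₀(N), O)` -/

section AbstractBridge

open Fermat.Agent.S43.Hecke

variable {N : ℕ} (O : Type) [CommRing O] [IsLocalRing O] [Module.IsTorsionFree ℤ O]
  {K : Type} (q : K → ℕ) (hq : ∀ k, (q k).Prime)

/-- the Hecke operators `τ_r` on `Hom(Γ₀(N), O)`: the family of helper24's `HL` -/
abbrev tB (N : ℕ) : K → Module.End O (Additive (Gamma0 N) →+ O) :=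
  fun k => Descent.Inst.tau O O N (q k) (hq k)

theorem tB_comm (i j : K) : Commute (tB O q hq N i) (tB O q hq N j) :=
  Descent.InstPoly.tau_commute O O N (hq i) (hq j)

/-- the `τ_r` preserve the parabolic homomorphisms -/
theorem tB_mem (k : K) (φ : Additive (Gamma0 N) →+ O)
    (hφ : φ ∈ parabolicHoms O (Gamma0 N) O) : tB O q hq N k φ ∈ parabolicHoms O (Gamma0 N) O := by
  show tauAllLin O O N (q k) (hq k) φ ∈ parabolicHoms O (Gamma0 N) O
  rw [tauAllLin_apply]
  exact tauAll_isParabolicHom (hq k) hφ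

/-- the restricted family is main's `tauPar` -/
theorem tres_eq_tauPar (k : K) :
    ParLoc.tres (tB O q hq N) (parabolicHoms O (Gamma0 N) O) (tB_mem O q hq) k =
      tauPar O O N (q k) (hq k) := rfl

variable {Λ : Type} [AddCommGroup Λ] [Module O Λ] (tT : K → Module.End O Λ)
  (hT : ∀ i j, Commute (tT i) (tT j))
  (hex : ∃ Φ : Λ ≃ₗ[O] ↥(parabolicHoms O (Gamma0 N) O),
    ∀ k x, Φ (tT k x) = tauPar O O N (q k) (hq k) (Φ x))
  (θ : K → IsLocalRing.ResidueField O) (k₀ : K) (h1 : ((q k₀ : ℕ) : ZMod N) = 1)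
  (hne : θ k₀ ≠ IsLocalRing.residue O ((1 + q k₀ : ℕ) : O))

include hex h1 hne in
/-- **the level-zero module is the localisation of the compared module**: a bijection
`Hom(Γ₀(N), O)_θ → Λ_θ`, linear over the polynomial Hecke algebra, at every non-Eisenstein `θ` -/
theorem exists_jL_abs :
    ∃ jL : Main.M0 O q hq N θ →ₗ[MvPolynomial K O] Loc (maxId θ) (WithOps tT hT),
      Function.Bijective jL := by
  obtain ⟨Φ, hΦ⟩ := hex
  have hΦ' : ∀ (k : K) (x : Λ), Φ (tT k x) =
      ParLoc.tres (tB O q hq N) (parabolicHoms O (Gamma0 N) O) (tB_mem O q hq) k (Φ x) := hΦ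
  refine ⟨(locMap (Sθ θ) (mapWSymm tT hT _
      (ParLoc.tres_comm (tB O q hq N) (tB_comm O q hq) _ (tB_mem O q hq)) Φ hΦ')).comp
    (ParLoc.locEquiv0 (tB O q hq N) (tB_comm O q hq) (tB_mem O q hq) θ k₀ (hq k₀) h1 rfl
      hne).symm.toLinearMap, ?_⟩
  exact (locMap_bijective _ _ (mapWSymm_bijective _ _ _ _ Φ hΦ')).comp (LinearEquiv.bijective _)

include hex h1 hne in
/-- **the bridge, strong form**: the Hecke algebra of the localisation of the compared module is
the Hecke algebra of the level-zero module, compatibly with the polynomial Hecke algebra -/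
theorem exists_bridge_abs :
    ∃ b : T O (maxId θ) (WithOps tT hT) →ₐ[O] T O (maxId θ) (Descent.Main.HL O q hq N),
      Function.Bijective b ∧
      ∀ Q : MvPolynomial K O,
        b (ofP O (maxId θ) (WithOps tT hT) Q) = ofP O (maxId θ) (Descent.Main.HL O q hq N) Q := by
  obtain ⟨jL, hjL⟩ := exists_jL_abs O q hq tT hT hex θ k₀ h1 hne
  refine ⟨Bridge.bridgeL O jL hjL.1, ⟨?_, Bridge.bridgeL_surjective O jL hjL.1⟩,
    fun Q => Bridge.bridgeL_ofP O jL hjL.1 Q⟩
  rw [injective_iff_map_eq_zero]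
  intro x hx
  apply T_faithful
  intro v
  obtain ⟨w, rfl⟩ := hjL.2 v
  rw [← Bridge.bridgeL_smul O jL hjL.1 x w, hx, zero_smul, map_zero]

include hex h1 hne in
/-- **the bridge**: the Hecke algebra of the localisation of the compared module acts on the
level-zero module, `T_r` as `X_r` -/
theorem exists_b0_abs :
    ∃ b₀ : T O (maxId θ) (WithOps tT hT) →ₐ[O] Module.End O (Main.M0 O q hq N θ),
      ∀ (k : K) (z : Main.M0 O q hq N θ),
        b₀ (ofP O (maxId θ) (WithOps tT hT) (MvPolynomial.X k)) z =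
          (MvPolynomial.X k : MvPolynomial K O) • z := by
  obtain ⟨b, -, hb⟩ := exists_bridge_abs O q hq tT hT hex θ k₀ h1 hne
  refine ⟨(T O (maxId θ) (Descent.Main.HL O q hq N)).val.comp b, fun k z => ?_⟩
  rw [AlgHom.comp_apply, hb]
  exact ofP_smul O (maxId θ) _ (MvPolynomial.X k) z

include hex h1 hne in
/-- **the bridge, with its image**: the action on the level-zero module is faithful, its image is
the Hecke algebra of the level-zero module, and every polynomial `Q` acts as `Q` -/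
theorem exists_b0_strong_abs :
    ∃ b₀ : T O (maxId θ) (WithOps tT hT) →ₐ[O] Module.End O (Main.M0 O q hq N θ),
      Function.Injective b₀ ∧
      (∀ f : Module.End O (Main.M0 O q hq N θ),
        f ∈ b₀.range ↔ f ∈ T O (maxId θ) (Descent.Main.HL O q hq N)) ∧
      ∀ (Q : MvPolynomial K O) (z : Main.M0 O q hq N θ),
        b₀ (ofP O (maxId θ) (WithOps tT hT) Q) z = Q • z := by
  obtain ⟨b, hbij, hb⟩ := exists_bridge_abs O q hq tT hT hex θ k₀ h1 hne
  refine ⟨(T O (maxId θ) (Descent.Main.HL O q hq N)).val.comp b,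
    Subtype.val_injective.comp hbij.1, fun f => ⟨?_, fun hf => ?_⟩, fun Q z => ?_⟩
  · rintro ⟨x, rfl⟩
    exact (b x).2
  · obtain ⟨x, hx⟩ := hbij.2 ⟨f, hf⟩
    exact ⟨x, congrArg Subtype.val hx⟩
  · rw [AlgHom.comp_apply, hb]
    exact ofP_smul O (maxId θ) _ Q z

include hex h1 hne in
/-- **the bridge, faithful form**: `T_r` acts as `X_r`, and the action is faithful -/
theorem exists_b0_faithful_abs :
    ∃ b₀ : T O (maxId θ) (WithOps tT hT) →ₐ[O] Module.End O (Main.M0 O q hq N θ),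
      (∀ (k : K) (z : Main.M0 O q hq N θ),
        b₀ (ofP O (maxId θ) (WithOps tT hT) (MvPolynomial.X k)) z =
          (MvPolynomial.X k : MvPolynomial K O) • z) ∧
      ∀ a : T O (maxId θ) (WithOps tT hT), (∀ z : Main.M0 O q hq N θ, b₀ a z = 0) → a = 0 := by
  obtain ⟨b₀, hinj, -, hb⟩ := exists_b0_strong_abs O q hq tT hT hex θ k₀ h1 hne
  refine ⟨b₀, fun k z => hb _ z, fun a ha => hinj ?_⟩
  rw [map_zero]
  exact LinearMap.ext ha

end AbstractBridge

/-! ### the bridge at level zero -/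

section Bridge

open Fermat.Agent.S43.Hecke

variable (N : ℕ) [NeZero N] (p : ℕ) [Fact p.Prime] (S₀ : Finset ℕ)
  (O : Type) [CommRing O] [IsLocalRing O] [IsDomain O] [CharZero O] [Algebra ℤ_[p] O]
  (θ : JZ N p S₀ → IsLocalRing.ResidueField O)

/-- the comparison, in the form the abstract bridge consumes -/
theorem exists_tate_equiv_Z :
    ∃ Φ : LamZ N p O ≃ₗ[O] ↥(parabolicHoms O (Gamma0 N) O),
      ∀ (j : JZ N p S₀) (x : LamZ N p O),
        Φ (tZ N p S₀ O j x) = tauPar O O N (j.1 : ℕ) j.1.2 (Φ x) := by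
  obtain ⟨Φ, hΦ⟩ := exists_tate_equiv_O N p O
  exact ⟨Φ, fun j x => hΦ j.1 x⟩

/-- **the level-zero module is the localised Tate module**: a bijection
`Hom(Γ₀(N), O)_θ → (O ⊗ T_p J₀(N))_θ`, linear over the polynomial Hecke algebra, at every
non-Eisenstein `θ` -/
theorem exists_jL (j₀ : JZ N p S₀) (h1 : (((j₀.1 : ℕ) : ℕ) : ZMod N) = 1)
    (hne : θ j₀ ≠ IsLocalRing.residue O ((1 + (j₀.1 : ℕ) : ℕ) : O)) :
    ∃ jL : Main.M0 O (fun j : JZ N p S₀ => (j.1 : ℕ)) (fun j => j.1.2) N θ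
        →ₗ[MvPolynomial (JZ N p S₀) O] LamZQ N p S₀ O (maxId θ), Function.Bijective jL := by
  have h5 := exists_jL_abs O (fun j : JZ N p S₀ => (j.1 : ℕ)) (fun j => j.1.2) (tZ N p S₀ O)
    (hcommZ N p S₀ O) (exists_tate_equiv_Z N p S₀ O) θ j₀ h1 hne
  exact h5

/-- **the bridge at level zero, strong form**: the Hecke algebra of the localised Tate module is
the Hecke algebra of the level-zero module, compatibly with the polynomial Hecke algebra -/
theorem exists_bridge (j₀ : JZ N p S₀) (h1 : (((j₀.1 : ℕ) : ℕ) : ZMod N) = 1)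
    (hne : θ j₀ ≠ IsLocalRing.residue O ((1 + (j₀.1 : ℕ) : ℕ) : O)) :
    ∃ b : TZ N p S₀ O (maxId θ) →ₐ[O]
        T O (maxId θ) (Descent.Main.HL O (fun j : JZ N p S₀ => (j.1 : ℕ)) (fun j => j.1.2) N),
      Function.Bijective b ∧
      ∀ Q : MvPolynomial (JZ N p S₀) O,
        b (ofP O (maxId θ) (WithOps (tZ N p S₀ O) (hcommZ N p S₀ O)) Q) =
          ofP O (maxId θ)
            (Descent.Main.HL O (fun j : JZ N p S₀ => (j.1 : ℕ)) (fun j => j.1.2) N) Q := by
  have h5 := exists_bridge_abs O (fun j : JZ N p S₀ => (j.1 : ℕ)) (fun j => j.1.2) (tZ N p S₀ O)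
    (hcommZ N p S₀ O) (exists_tate_equiv_Z N p S₀ O) θ j₀ h1 hne
  exact h5

/-- **the bridge at level zero** (the chief's literal #6475 (4)): the Hecke algebra of the
localised Tate module acts on the level-zero module, `T_r` as `X_r` -/
theorem exists_b0 (j₀ : JZ N p S₀) (h1 : (((j₀.1 : ℕ) : ℕ) : ZMod N) = 1)
    (hne : θ j₀ ≠ IsLocalRing.residue O ((1 + (j₀.1 : ℕ) : ℕ) : O)) :
    ∃ b₀ : TZ N p S₀ O (maxId θ) →ₐ[O]
        Module.End O (Main.M0 O (fun j : JZ N p S₀ => (j.1 : ℕ)) (fun j => j.1.2) N θ),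
      ∀ (j : JZ N p S₀) (z : Main.M0 O (fun j : JZ N p S₀ => (j.1 : ℕ)) (fun j => j.1.2) N θ),
        b₀ (tZQ N p S₀ O (maxId θ) j) z =
          (MvPolynomial.X j : MvPolynomial (JZ N p S₀) O) • z := by
  have h5 := exists_b0_abs O (fun j : JZ N p S₀ => (j.1 : ℕ)) (fun j => j.1.2) (tZ N p S₀ O)
    (hcommZ N p S₀ O) (exists_tate_equiv_Z N p S₀ O) θ j₀ h1 hne
  exact h5

/-- **the bridge at level zero, with its image**: the action of the Hecke algebra of the localised
Tate module on the level-zero module is faithful, its image is the Hecke algebra of the level-zero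
module, and every polynomial `Q` acts as `Q` -/
theorem exists_b0_strong (j₀ : JZ N p S₀) (h1 : (((j₀.1 : ℕ) : ℕ) : ZMod N) = 1)
    (hne : θ j₀ ≠ IsLocalRing.residue O ((1 + (j₀.1 : ℕ) : ℕ) : O)) :
    ∃ b₀ : TZ N p S₀ O (maxId θ) →ₐ[O]
        Module.End O (Main.M0 O (fun j : JZ N p S₀ => (j.1 : ℕ)) (fun j => j.1.2) N θ),
      Function.Injective b₀ ∧
      (∀ f : Module.End O (Main.M0 O (fun j : JZ N p S₀ => (j.1 : ℕ)) (fun j => j.1.2) N θ),
        f ∈ b₀.range ↔ f ∈ T O (maxId θ)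
          (Descent.Main.HL O (fun j : JZ N p S₀ => (j.1 : ℕ)) (fun j => j.1.2) N)) ∧
      ∀ (Q : MvPolynomial (JZ N p S₀) O)
        (z : Main.M0 O (fun j : JZ N p S₀ => (j.1 : ℕ)) (fun j => j.1.2) N θ),
        b₀ (ofP O (maxId θ) (WithOps (tZ N p S₀ O) (hcommZ N p S₀ O)) Q) z = Q • z := by
  have h5 := exists_b0_strong_abs O (fun j : JZ N p S₀ => (j.1 : ℕ)) (fun j => j.1.2)
    (tZ N p S₀ O) (hcommZ N p S₀ O) (exists_tate_equiv_Z N p S₀ O) θ j₀ h1 hne
  exact h5

/-- **the bridge at level zero, faithful form** (the chief's literal #6494 (3)): `T_r` acts as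
`X_r`, and the action of the Hecke algebra of the localised Tate module on the level-zero module
is faithful -/
theorem exists_b0_faithful (j₀ : JZ N p S₀) (h1 : (((j₀.1 : ℕ) : ℕ) : ZMod N) = 1)
    (hne : θ j₀ ≠ IsLocalRing.residue O ((1 + (j₀.1 : ℕ) : ℕ) : O)) :
    ∃ b₀ : TZ N p S₀ O (maxId θ) →ₐ[O]
        Module.End O (Main.M0 O (fun j : JZ N p S₀ => (j.1 : ℕ)) (fun j => j.1.2) N θ),
      (∀ (j : JZ N p S₀)
        (z : Main.M0 O (fun j : JZ N p S₀ => (j.1 : ℕ)) (fun j => j.1.2) N θ),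
        b₀ (tZQ N p S₀ O (maxId θ) j) z =
          (MvPolynomial.X j : MvPolynomial (JZ N p S₀) O) • z) ∧
      ∀ a : TZ N p S₀ O (maxId θ),
        (∀ z : Main.M0 O (fun j : JZ N p S₀ => (j.1 : ℕ)) (fun j => j.1.2) N θ, b₀ a z = 0) →
          a = 0 := by
  have h5 := exists_b0_faithful_abs O (fun j : JZ N p S₀ => (j.1 : ℕ)) (fun j => j.1.2)
    (tZ N p S₀ O) (hcommZ N p S₀ O) (exists_tate_equiv_Z N p S₀ O) θ j₀ h1 hne
  exact h5

end Bridge

end Fermat.Agent.S43.Rho.Zero.Bridge
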