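/-
PROJECT R (S43, row 37), block L1 / level zero, file `Rho/Zero/BridgeEntry` (helper6): WHAT THE
BIJECTION `M0 → LamZQ` OF `Rho/Zero/Bridge` TRANSPORTS.

* `nontrivial_loc_abs`, `nontrivial_M0_abs`, `exists_equivO_abs` : abstract forms;
* `nontrivial_LamZQ` : `M0 ≠ 0 ⟹ LamZQ ≠ 0` (the `[Nontrivial (LamZQ ..)]` of the chief's
  `Rho/Zero/Main`); `nontrivial_M0` the converse;
* `exists_equivO` : `M0 ≃ₗ[O] LamZQ` commuting with every polynomial;
* `free_M0` : the level-zero module is free over ANY complete noetherian local domain `O` of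
  characteristic zero (not only a principal ideal domain), `finrank_M0`;
* `nontrivial_LamZQ_of_entry` : the chief's `Hecke/Entry.entry` composed: for the eigenvalues of a
  normalised eigenform congruent to `W`, the localised Tate module is not zero.
-/
import Mathlib
import Fermat.Agent.S43.Rho.Zero.Bridge
import Fermat.Agent.S43.Hecke.Entry

set_option autoImplicit false
set_option linter.unusedSectionVars false

noncomputable section

namespace Fermat.Agent.S43.Rho.Zero.BridgeEntry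

open Fermat.Agent.S43.Hecke Fermat.Agent.S43.Hecke.PolyModule Fermat.Agent.S43.Hecke.Loc
open Fermat.Agent.S43.Rho.Lam Fermat.Agent.S43.Rho.Zero.Inst

/-! ### abstract forms -/

section AbstractEntry

open CongruenceSubgroup ModularCurve ModularCurve.Period Fermat.Agent.S30.Hecke.Parabolic

variable {N : ℕ} (O : Type) [CommRing O] [IsLocalRing O] [Module.IsTorsionFree ℤ O]
  {K : Type} (q : K → ℕ) (hq : ∀ k, (q k).Prime)
  {Λ : Type} [AddCommGroup Λ] [Module O Λ] (tT : K → Module.End O Λ)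
  (hT : ∀ i j, Commute (tT i) (tT j))
  (hex : ∃ Φ : Λ ≃ₗ[O] ↥(parabolicHoms O (Gamma0 N) O),
    ∀ k x, Φ (tT k x) = tauPar O O N (q k) (hq k) (Φ x))
  (θ : K → IsLocalRing.ResidueField O) (k₀ : K) (h1 : ((q k₀ : ℕ) : ZMod N) = 1)
  (hne : θ k₀ ≠ IsLocalRing.residue O ((1 + q k₀ : ℕ) : O))

include hex h1 hne in
theorem nontrivial_loc_abs (h0 : Nontrivial (Main.M0 O q hq N θ)) :
    Nontrivial (Loc (maxId θ) (WithOps tT hT)) := by
  obtain ⟨jL, hjL⟩ := Bridge.exists_jL_abs O q hq tT hT hex θ k₀ h1 hne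
  exact hjL.1.nontrivial

include hex h1 hne in
theorem nontrivial_M0_abs (h0 : Nontrivial (Loc (maxId θ) (WithOps tT hT))) :
    Nontrivial (Main.M0 O q hq N θ) := by
  obtain ⟨jL, hjL⟩ := Bridge.exists_jL_abs O q hq tT hT hex θ k₀ h1 hne
  exact hjL.2.nontrivial

include hex h1 hne in
/-- the bijection as an `O`-linear equivalence commuting with every polynomial -/
theorem exists_equivO_abs :
    ∃ e : Main.M0 O q hq N θ ≃ₗ[O] Loc (maxId θ) (WithOps tT hT),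
      ∀ (Q : MvPolynomial K O) (z : Main.M0 O q hq N θ), e (Q • z) = Q • e z := by
  obtain ⟨jL, hjL⟩ := Bridge.exists_jL_abs O q hq tT hT hex θ k₀ h1 hne
  exact ⟨LinearEquiv.ofBijective (jL.restrictScalars O) hjL, fun Q z => map_smul jL Q z⟩

end AbstractEntry

/-! ### level zero -/

section Zero

variable (N : ℕ) [NeZero N] (p : ℕ) [Fact p.Prime] (S₀ : Finset ℕ)
  (O : Type) [CommRing O] [IsLocalRing O] [IsDomain O] [CharZero O] [Algebra ℤ_[p] O]
  (θ : JZ N p S₀ → IsLocalRing.ResidueField O)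

/-- **`M0 ≠ 0 ⟹ LamZQ ≠ 0`** -/
theorem nontrivial_LamZQ (j₀ : JZ N p S₀) (h1 : (((j₀.1 : ℕ) : ℕ) : ZMod N) = 1)
    (hne : θ j₀ ≠ IsLocalRing.residue O ((1 + (j₀.1 : ℕ) : ℕ) : O))
    (h0 : Nontrivial (Main.M0 O (fun j : JZ N p S₀ => (j.1 : ℕ)) (fun j => j.1.2) N θ)) :
    Nontrivial (LamZQ N p S₀ O (maxId θ)) := by
  have h5 := nontrivial_loc_abs O (fun j : JZ N p S₀ => (j.1 : ℕ)) (fun j => j.1.2)
    (tZ N p S₀ O) (hcommZ N p S₀ O) (Bridge.exists_tate_equiv_Z N p S₀ O) θ j₀ h1 hne h0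
  exact h5

/-- **`LamZQ ≠ 0 ⟹ M0 ≠ 0`** -/
theorem nontrivial_M0 (j₀ : JZ N p S₀) (h1 : (((j₀.1 : ℕ) : ℕ) : ZMod N) = 1)
    (hne : θ j₀ ≠ IsLocalRing.residue O ((1 + (j₀.1 : ℕ) : ℕ) : O))
    (h0 : Nontrivial (LamZQ N p S₀ O (maxId θ))) :
    Nontrivial (Main.M0 O (fun j : JZ N p S₀ => (j.1 : ℕ)) (fun j => j.1.2) N θ) := by
  have h5 := nontrivial_M0_abs O (fun j : JZ N p S₀ => (j.1 : ℕ)) (fun j => j.1.2)
    (tZ N p S₀ O) (hcommZ N p S₀ O) (Bridge.exists_tate_equiv_Z N p S₀ O) θ j₀ h1 hne h0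
  exact h5

/-- the level-zero module and the localised Tate module are isomorphic over `O`, compatibly with
the polynomial Hecke algebra -/
theorem exists_equivO (j₀ : JZ N p S₀) (h1 : (((j₀.1 : ℕ) : ℕ) : ZMod N) = 1)
    (hne : θ j₀ ≠ IsLocalRing.residue O ((1 + (j₀.1 : ℕ) : ℕ) : O)) :
    ∃ e : Main.M0 O (fun j : JZ N p S₀ => (j.1 : ℕ)) (fun j => j.1.2) N θ ≃ₗ[O]
        LamZQ N p S₀ O (maxId θ),
      ∀ (Q : MvPolynomial (JZ N p S₀) O)
        (z : Main.M0 O (fun j : JZ N p S₀ => (j.1 : ℕ)) (fun j => j.1.2) N θ),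
        e (Q • z) = Q • e z := by
  have h5 := exists_equivO_abs O (fun j : JZ N p S₀ => (j.1 : ℕ)) (fun j => j.1.2)
    (tZ N p S₀ O) (hcommZ N p S₀ O) (Bridge.exists_tate_equiv_Z N p S₀ O) θ j₀ h1 hne
  exact h5

/-- **the level-zero module is free** over any complete noetherian local domain of characteristic
zero, at a non-Eisenstein `θ` -/
theorem free_M0 [IsNoetherianRing O] [IsAdicComplete (IsLocalRing.maximalIdeal O) O]
    (j₀ : JZ N p S₀) (h1 : (((j₀.1 : ℕ) : ℕ) : ZMod N) = 1)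
    (hne : θ j₀ ≠ IsLocalRing.residue O ((1 + (j₀.1 : ℕ) : ℕ) : O)) :
    Module.Free O (Main.M0 O (fun j : JZ N p S₀ => (j.1 : ℕ)) (fun j => j.1.2) N θ) := by
  obtain ⟨e, -⟩ := exists_equivO N p S₀ O θ j₀ h1 hne
  have := free_LamZQ N p S₀ O (maxId θ)
  exact Module.Free.of_equiv e.symm

/-- the ranks agree -/
theorem finrank_M0 (j₀ : JZ N p S₀) (h1 : (((j₀.1 : ℕ) : ℕ) : ZMod N) = 1)
    (hne : θ j₀ ≠ IsLocalRing.residue O ((1 + (j₀.1 : ℕ) : ℕ) : O)) :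
    Module.finrank O (Main.M0 O (fun j : JZ N p S₀ => (j.1 : ℕ)) (fun j => j.1.2) N θ) =
      Module.finrank O (LamZQ N p S₀ O (maxId θ)) := by
  obtain ⟨e, -⟩ := exists_equivO N p S₀ O θ j₀ h1 hne
  exact e.finrank_eq

end Zero

/-! ### with the entry -/

section Entry

open Fermat.Agent.S43.Hecke.Entry

variable (N : ℕ) [NeZero N] (p : ℕ) [Fact p.Prime] (S₀ : Finset ℕ)
  (O : Type) [CommRing O] [IsLocalRing O] [IsDomain O] [CharZero O] [Algebra ℤ_[p] O]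
  [IsLocalHom (algebraMap ℤ_[p] O)]

/-- **the localised Tate module of level zero is not zero** at the eigenvalues of a normalised
eigenform of level `N` congruent to `W` modulo a prime over `p` -/
theorem nontrivial_LamZQ_of_entry {W : WeierstrassCurve ℤ} (hΔ : W.Δ ≠ 0)
    {f : CuspForm (CongruenceSubgroup.Gamma0 N) 2} (hf : f.IsNormalizedEigenform)
    {𝔫 : Ideal (integralClosure ℤ ℂ)} (h𝔫 : 𝔫 ≠ ⊤) (hp𝔫 : (p : integralClosure ℤ ℂ) ∈ 𝔫)
    (hcong : ∀ ℓ : ℕ, ℓ.Prime → W.IsGoodPrimeFor ℓ → ¬ ℓ ∣ N → ℓ ≠ p →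
      ∃ a : integralClosure ℤ ℂ, (a : ℂ) = ModularFormClass.qCoeff f ℓ ∧
        a - ((W.apOfModel ℓ : ℤ) : integralClosure ℤ ℂ) ∈ 𝔫)
    (hS₀ : Fermat.Agent.S44.Ent.Phi.excSet W p N ⊆ S₀)
    (j₀ : JZ N p S₀) (h1 : (((j₀.1 : ℕ) : ℕ) : ZMod N) = 1)
    (hne : IsLocalRing.residue O (((W.apOfModel (j₀.1 : ℕ) : ℤ) : O)) ≠
      IsLocalRing.residue O ((1 + (j₀.1 : ℕ) : ℕ) : O)) :
    Nontrivial (LamZQ N p S₀ O
      (maxId (fun j : JZ N p S₀ => IsLocalRing.residue O (((W.apOfModel (j.1 : ℕ) : ℤ) : O))))) := by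
  have h0 := entry (O := O) hΔ hf h𝔫 hp𝔫 hcong (fun j : JZ N p S₀ => (j.1 : ℕ)) (fun j => j.1.2)
    (fun j h => j.2.2.2 (hS₀ h))
    (fun i j => Descent.InstPoly.tau_commute O O N i.1.2 j.1.2)
  exact nontrivial_LamZQ N p S₀ O _ j₀ h1 hne h0

end Entry

end Fermat.Agent.S43.Rho.Zero.BridgeEntry
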