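/-
PROJECT R (S43, row 37), block L1 / level zero, file `Rho/Zero/BridgeMod` (helper6): THE LEVEL-ZERO
MODULE AS A FAITHFUL MODULE OVER THE HECKE ALGEBRA OF THE LOCALISED TATE MODULE, in the shape
helper21's `RSide/FeedQ.nonempty_datumJ_Q` / `RSide/ZeroTrace.eq_of_compat` consume
(`[Module T0 M0] [IsScalarTower O T0 M0]`, `hfaith`), from `Rho/Zero/Bridge.exists_b0_strong`.
-/
import Mathlib
import Fermat.Agent.S43.Rho.Zero.Bridge

set_option autoImplicit false
set_option linter.unusedSectionVars false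

noncomputable section

namespace Fermat.Agent.S43.Rho.Zero.BridgeMod

open Fermat.Agent.S43.Hecke Fermat.Agent.S43.Hecke.PolyModule Fermat.Agent.S43.Hecke.Loc
open Fermat.Agent.S43.Rho.Lam Fermat.Agent.S43.Rho.Zero.Inst

/-! ### a module structure from an algebra map to the endomorphisms -/

section Abstract

variable {O : Type*} [CommRing O] {T : Type*} [CommRing T] [Algebra O T]
  {M : Type*} [AddCommGroup M] [Module O M]

/-- an `O`-algebra map `T → End_O M` makes `M` a `T`-module over which `O` acts through `T` -/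
theorem exists_module_of_algHom (b : T →ₐ[O] Module.End O M) :
    ∃ (_ : Module T M) (_ : IsScalarTower O T M), ∀ (a : T) (z : M), a • z = b a z := by
  let inst : Module T M := Module.compHom M b.toRingHom
  refine ⟨inst, ⟨fun c a z => ?_⟩, fun a z => rfl⟩
  show b (c • a) z = c • b a z
  rw [map_smul, LinearMap.smul_apply]

end Abstract

/-! ### the level-zero module over the Hecke algebra of an abstract compared module -/

section AbstractZero

open CongruenceSubgroup ModularCurve ModularCurve.Period Fermat.Agent.S30.Hecke.Parabolic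

variable {N : ℕ} (O : Type) [CommRing O] [IsLocalRing O] [Module.IsTorsionFree ℤ O]
  {K : Type} (q : K → ℕ) (hq : ∀ k, (q k).Prime)
  {Λ : Type} [AddCommGroup Λ] [Module O Λ] (tT : K → Module.End O Λ)
  (hT : ∀ i j, Commute (tT i) (tT j))
  (hex : ∃ Φ : Λ ≃ₗ[O] ↥(parabolicHoms O (Gamma0 N) O),
    ∀ k x, Φ (tT k x) = tauPar O O N (q k) (hq k) (Φ x))
  (θ : K → IsLocalRing.ResidueField O) (k₀ : K) (h1 : ((q k₀ : ℕ) : ZMod N) = 1)
  (hne : θ k₀ ≠ IsLocalRing.residue O ((1 + q k₀ : ℕ) : O))

include hex h1 hne in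
set_option synthInstance.maxHeartbeats 400000 in
/-- the level-zero module is a faithful module over the Hecke algebra of the localisation of the
compared module -/
theorem exists_module_M0_abs :
    ∃ (_ : Module (T O (maxId θ) (WithOps tT hT)) (Main.M0 O q hq N θ))
      (_ : IsScalarTower O (T O (maxId θ) (WithOps tT hT)) (Main.M0 O q hq N θ)),
      (∀ (Q : MvPolynomial K O) (z : Main.M0 O q hq N θ),
        ofP O (maxId θ) (WithOps tT hT) Q • z = Q • z) ∧
      ∀ a : T O (maxId θ) (WithOps tT hT),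
        (∀ z : Main.M0 O q hq N θ, a • z = 0) → a = 0 := by
  obtain ⟨b₀, hinj, -, hb⟩ := Bridge.exists_b0_strong_abs O q hq tT hT hex θ k₀ h1 hne
  obtain ⟨i1, i2, hsm⟩ := exists_module_of_algHom b₀
  refine ⟨i1, i2, fun Q z => ?_, fun a ha => hinj ?_⟩
  · rw [hsm]
    exact hb Q z
  · rw [map_zero]
    refine LinearMap.ext fun z => ?_
    rw [← hsm]
    exact ha z

end AbstractZero

/-! ### the level-zero module over `TZ` -/

section Zero

variable (N : ℕ) [NeZero N] (p : ℕ) [Fact p.Prime] (S₀ : Finset ℕ)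
  (O : Type) [CommRing O] [IsLocalRing O] [IsDomain O] [CharZero O] [Algebra ℤ_[p] O]
  (θ : JZ N p S₀ → IsLocalRing.ResidueField O)

set_option synthInstance.maxHeartbeats 400000 in
/-- **the level-zero module is a faithful module over the Hecke algebra of the localised Tate
module**, `O` acting through it, every polynomial `Q` acting as `Q` (so `T_r` as `X_r`) -/
theorem exists_module_M0 (j₀ : JZ N p S₀) (h1 : (((j₀.1 : ℕ) : ℕ) : ZMod N) = 1)
    (hne : θ j₀ ≠ IsLocalRing.residue O ((1 + (j₀.1 : ℕ) : ℕ) : O)) :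
    ∃ (_ : Module (TZ N p S₀ O (maxId θ))
        (Main.M0 O (fun j : JZ N p S₀ => (j.1 : ℕ)) (fun j => j.1.2) N θ))
      (_ : IsScalarTower O (TZ N p S₀ O (maxId θ))
        (Main.M0 O (fun j : JZ N p S₀ => (j.1 : ℕ)) (fun j => j.1.2) N θ)),
      (∀ (Q : MvPolynomial (JZ N p S₀) O)
        (z : Main.M0 O (fun j : JZ N p S₀ => (j.1 : ℕ)) (fun j => j.1.2) N θ),
        ofP O (maxId θ) (WithOps (tZ N p S₀ O) (hcommZ N p S₀ O)) Q • z = Q • z) ∧
      ∀ a : TZ N p S₀ O (maxId θ),
        (∀ z : Main.M0 O (fun j : JZ N p S₀ => (j.1 : ℕ)) (fun j => j.1.2) N θ, a • z = 0) →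
          a = 0 := by
  have h5 := exists_module_M0_abs O (fun j : JZ N p S₀ => (j.1 : ℕ)) (fun j => j.1.2)
    (tZ N p S₀ O) (hcommZ N p S₀ O) (Bridge.exists_tate_equiv_Z N p S₀ O) θ j₀ h1 hne
  exact h5

end Zero

end Fermat.Agent.S43.Rho.Zero.BridgeMod
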