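/-
PROJECT R (S43, row 37), block L1 (helper8, chief R), file `Rho/Zero/Gen`:
**THE ONE-STOP INSTANCE OF L1 ON ANY LOCALISED HECKE MODULE** `Loc m N`, `T O m N` (`Rho/Lam`),
in the ABSTRACT vocabulary of `Rho/Lam` (so that no elaboration problem of the concrete instances
`LamInst`, `LamInstD`, `Zero/Inst` enters; these are instances of `N`).

`h : Dens.Datum Sg (maximalIdeal O) r ε (T O m N)`, `ev : P →+* k` with kernel `m`,
`rbar : ResidualGaloisRep k` with `charpoly (rbar Frob_ℓ) = X² - resT (t Frob_ℓ) X + ℓ`, a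
normalisation `(c, g₀, h₀, b)` of `rbar`.

* `resT_eq_zero_of_mem_smallEnd`, `mem_maximalIdeal_iff` ;
* `resT_tT` : `resT (tT h g) = tr rbar g` for EVERY `g` ;
* `exists_rho` : `hin : CH.Input (rT h) (tT h) (dHom ε T) c g₀ h₀` with `IsContMat`, the residual
  matrices (`(rep hin σ).map resT = toMatrix b b (rbar σ)`), and for every such `hin` :
  `trace_rep`, `det_rep`, `rep_eq_one_of_r`.
-/
import Mathlib
import Fermat.Agent.S43.Rho.LamRes
import Fermat.Agent.S43.Rho.ExistsNorm
import Fermat.Agent.S43.Rho.Props.Det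

set_option autoImplicit false
set_option linter.unusedSectionVars false
set_option linter.style.haveILetI false

noncomputable section

namespace Fermat.Agent.S43.Rho.Zero.Gen

open IsLocalRing Polynomial
open Fermat.Agent.S43.Rho.Lam
open Fermat.Agent.S43.Rho
open Fermat.Agent.S31.Core (Qbar GQ smallEnd)
open Fermat.Agent.S53.Dictionary hiding GQ
open scoped IsMulCommutative

attribute [local instance] Glue.smulCommClassT Glue.algebraEnd

variable (O : Type) [CommRing O] [IsLocalRing O] [IsNoetherianRing O]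
  {P : Type} [CommRing P] [Algebra O P] (m : Ideal P) [m.IsMaximal]
  (N : Type) [AddCommGroup N] [Module O N] [Module P N] [IsScalarTower O P N]
  [Module.Finite O (Loc m N)] [Nontrivial (Loc m N)]
  {k : Type} [Field k] (ev : P →+* k) (hev : RingHom.ker ev = m)

theorem isMulCommutative_T : IsMulCommutative (T O m N) := ⟨⟨mul_comm⟩⟩

/-- the structure map `O → T` is local -/
theorem isLocalHom_algebraMap_T : IsLocalHom (algebraMap O (T O m N)) :=
  Exists.isLocalHom_algebraMap (T O m N)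

/-- the residue map kills the elements of `T` with image in `𝔪_O • Loc m N` -/
theorem resT_eq_zero_of_mem_smallEnd (x : T O m N)
    (hx : (x : Module.End O (Loc m N)) ∈ smallEnd (V := Loc m N) (maximalIdeal O)) :
    LamRes.resT O m N ev hev x = 0 :=
  haveI := LamRes.isLocalHom_resT O m N ev hev
  Glue.map_eq_zero_of_mem_smallEnd (IsLocalRing.maximalIdeal_le_jacobson ⊥)
    (LamRes.resT O m N ev hev) x hx

theorem mem_maximalIdeal_iff (x : T O m N) :
    x ∈ maximalIdeal (T O m N) ↔ LamRes.resT O m N ev hev x = 0 := by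
  haveI := LamRes.isLocalHom_resT O m N ev hev
  rw [mem_maximalIdeal, mem_nonunits_iff]
  constructor
  · intro hx
    by_contra hne
    exact hx (isUnit_of_map_unit (LamRes.resT O m N ev hev) x (isUnit_iff_ne_zero.mpr hne))
  · intro hx hu
    have := hu.map (LamRes.resT O m N ev hev)
    rw [hx] at this
    exact not_isUnit_zero this

variable {Sg : Finset ℕ} {r : GQ →* Module.End O (Loc m N)} {ε : GQ →* O}
  (h : Dens.Datum Sg (maximalIdeal O) r ε (T O m N))

/-- **`t mod 𝔪_T = tr ρ̄`** for EVERY `g`, from the Frobenius elements -/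
theorem resT_tT (rbar : ResidualGaloisRep k)
    (hfrob : ∀ ℓ : ℕ, ℓ.Prime → ℓ ∉ Sg → ∀ A : ValuationSubring Qbar, A.LiesOverPrime ℓ →
      ∀ τ : GQ, A.IsFrobeniusAt τ ℓ →
        LinearMap.charpoly (rbar.ρ τ) =
          X ^ 2 - C (LamRes.resT O m N ev hev (Dens.tT h τ)) * X + C ((ℓ : ℕ) : k))
    (g : GQ) :
    LamRes.resT O m N ev hev (Dens.tT h g) = LinearMap.trace k rbar.V (rbar.ρ g) := by
  have h1 := Exists.trace_eq_of_frob h (LamRes.resT O m N ev hev)
    (resT_eq_zero_of_mem_smallEnd O m N ev hev) (RingHom.id k) rbar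
    (fun ℓ hℓ hℓS A hA τ hτ hτT => by
      rw [Polynomial.map_id]
      exact hfrob ℓ hℓ hℓS A hA τ hτ) g
  rw [h1, RingHom.id_apply]

/-- the same, with the value of `resT (t Frob_ℓ)` named (no rewriting needed at the instances) -/
theorem resT_tT' (rbar : ResidualGaloisRep k)
    (hfrob : ∀ ℓ : ℕ, ℓ.Prime → ℓ ∉ Sg → ∀ A : ValuationSubring Qbar, A.LiesOverPrime ℓ →
      ∀ τ : GQ, A.IsFrobeniusAt τ ℓ → ∃ a : k,
        LamRes.resT O m N ev hev (Dens.tT h τ) = a ∧
        LinearMap.charpoly (rbar.ρ τ) = X ^ 2 - C a * X + C ((ℓ : ℕ) : k))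
    (g : GQ) :
    LamRes.resT O m N ev hev (Dens.tT h g) = LinearMap.trace k rbar.V (rbar.ρ g) := by
  refine resT_tT O m N ev hev h rbar (fun ℓ hℓ hℓS A hA τ hτ => ?_) g
  obtain ⟨a, ha, hch⟩ := hfrob ℓ hℓ hℓS A hA τ hτ
  rw [ha]
  exact hch

variable [Invertible (2 : O)] [Invertible (2 : k)]

/-- `2` is invertible in `T` -/
@[reducible] def invertibleTwoT : Invertible (2 : T O m N) := Glue.invertibleTwo (T O m N)

attribute [local instance] invertibleTwoT

/-- **`ρ_T` EXISTS ON `T O m N`, AT THE GIVEN NORMALISATION** -/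
theorem exists_rho (rbar : ResidualGaloisRep k) {c g₀ h₀ : GQ}
    {b : Module.Basis (Fin 2) k rbar.V} (hn : ExistsNorm.Norm rbar c g₀ h₀ b)
    (hc : c * c = 1) (hcyc : ε c = -1)
    (htr : ∀ g, LamRes.resT O m N ev hev (Dens.tT h g) = LinearMap.trace k rbar.V (rbar.ρ g)) :
    ∃ hin : CH.Input (E := Module.End (T O m N) (Loc m N))
      (Dens.rT h) (Dens.tT h) (Glue.dHom ε (T O m N)) c g₀ h₀,
      IsContMat (T O m N) (CH.rep hin) ∧
      ∀ σ : GQ, (CH.rep hin σ).map (LamRes.resT O m N ev hev) =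
        LinearMap.toMatrix b b (rbar.ρ σ) := by
  have i1 := isMulCommutative_T O m N
  have i3 : IsLocalHom (algebraMap O (T O m N)) := isLocalHom_algebraMap_T O m N
  have i5 := LamRes.isLocalHom_resT O m N ev hev
  obtain ⟨hin, h1, h2⟩ := ExistsNorm.exists_rhoT_of_norm h hc hcyc rbar hn
    (LamRes.resT O m N ev hev) (RingHom.id k) htr
  refine ⟨hin, h1, fun σ => ?_⟩
  have h3 := congrArg (fun f : GQ →* Mat k => f σ) h2
  simp only [mapMat_id] at h3
  rw [← resMatOf_apply, ← h3, mapMat_apply']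

variable {c g₀ h₀ : GQ}
  (hin : CH.Input (E := Module.End (T O m N) (Loc m N))
    (Dens.rT h) (Dens.tT h) (Glue.dHom ε (T O m N)) c g₀ h₀)

theorem trace_rep (σ : GQ) : (CH.rep hin σ).trace = Dens.tT h σ := CH.trace_rep hin σ

theorem det_rep (σ : GQ) : (CH.rep hin σ).det = algebraMap O (T O m N) (ε σ) := by
  rw [CH.det_rep hin σ, Glue.dHom_apply]

/-- an element acting trivially on `Loc m N` has trivial matrix -/
theorem rep_eq_one_of_r {σ : GQ} (hσ : r σ = 1) : CH.rep hin σ = 1 :=
  haveI := isMulCommutative_T O m N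
  haveI : IsLocalHom (algebraMap O (T O m N)) := isLocalHom_algebraMap_T O m N
  Props.Det.rep_eq_one_of_r h hin hσ

end Fermat.Agent.S43.Rho.Zero.Gen
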