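/-
PROJECT R (S43, row 37), block L1, LEVEL ZERO ON `J₀(N)` (helper8, chief R), file `Rho/Zero/Main`:
**THE ONE-STOP INSTANCE OF L1 AT LEVEL ZERO** (`Rho/Zero/Gen` at `Rho/Zero/Inst`).

`𝔪 = ker ev`, `ev : MvPolynomial (JZ N p S₀) O →+* k` the system of eigenvalues, `LamZQ ≠ 0`,
`rbar : ResidualGaloisRep k` with `charpoly (rbar Frob_r) = X² - ev (X r) X + r` at every
`r : JZ N p S₀`, `(c, g₀, h₀, b)` a normalisation of `rbar` (`Rho/ExistsNorm.Norm`).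

* `resZ : TZ →+* k`, `resZ_tZQ`, `resZ_algebraMap`, `mem_maximalIdeal_iff`, `isLocalHom_resZ`;
* `tT_frob` : `Dens.tT datumZ τ = tZQ j` for `τ` a Frobenius element at `j`;
* `resZ_tT` : `resZ (tT g) = tr rbar g` for EVERY `g`;
* `exists_rhoZ` : `hin : CH.Input (rT datumZ) (tT datumZ) (dHom eps TZ) c g₀ h₀` with
  `IsContMat` and the residual matrices; `trace_repZ`, `det_repZ`, `repZ_eq_one_of_inertia`
  (at `ℓ ∤ N p`), `trace_repZ_frob`.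
-/
import Mathlib
import Fermat.Agent.S43.Rho.Zero.Inst
import Fermat.Agent.S43.Rho.Zero.Gen

set_option autoImplicit false
set_option linter.unusedSectionVars false
set_option linter.style.haveILetI false

noncomputable section

namespace Fermat.Agent.S43.Rho.Zero.Main

open IsLocalRing Polynomial
open Fermat.Agent.S43.Rho.Zero.Inst
open Fermat.Agent.S43.Rho.Lam Fermat.Agent.S43.Hecke.PolyModule Fermat.Agent.S43.Rho.LamDatum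
open Fermat.Agent.S43.Rho.Feed.Inst (eps cont_eps frob_eps)
open Fermat.Agent.S31.Core (Qbar GQ smallEnd)
open Fermat.Agent.S43.Rho
open Fermat.Agent.S53.Dictionary hiding GQ

attribute [local instance] Glue.smulCommClassT Glue.algebraEnd Gen.invertibleTwoT

variable (N : ℕ) [NeZero N] (p : ℕ) [hp : Fact p.Prime] (S₀ : Finset ℕ)
  (O : Type) [CommRing O] [Algebra ℤ_[p] O] [IsLocalRing O] [IsNoetherianRing O]
  [IsAdicComplete (maximalIdeal O) O]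
  (𝔪 : Ideal (MvPolynomial (JZ N p S₀) O)) [𝔪.IsMaximal]

instance instFiniteLamZQ : Module.Finite O (LamZQ N p S₀ O 𝔪) := finite_LamZQ N p S₀ O 𝔪

instance instFreeLamZQ : Module.Free O (LamZQ N p S₀ O 𝔪) := free_LamZQ N p S₀ O 𝔪

instance instFiniteTZ : Module.Finite O (TZ N p S₀ O 𝔪) := finite_TZ N p S₀ O 𝔪

variable [Nontrivial (LamZQ N p S₀ O 𝔪)]
  {k : Type} [Field k] (ev : MvPolynomial (JZ N p S₀) O →+* k) (hev : RingHom.ker ev = 𝔪)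

/-! ### the residue map -/

/-- the residue map of the level-zero Hecke algebra -/
def resZ : TZ N p S₀ O 𝔪 →+* k :=
  LamRes.resT O 𝔪 (WithOps (tZ N p S₀ O) (hcommZ N p S₀ O)) ev hev

theorem isLocalHom_resZ : IsLocalHom (resZ N p S₀ O 𝔪 ev hev) :=
  LamRes.isLocalHom_resT O 𝔪 (WithOps (tZ N p S₀ O) (hcommZ N p S₀ O)) ev hev

theorem resZ_tZQ (j : JZ N p S₀) :
    resZ N p S₀ O 𝔪 ev hev (tZQ N p S₀ O 𝔪 j) = ev (MvPolynomial.X j) :=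
  LamRes.resT_ofP O 𝔪 (WithOps (tZ N p S₀ O) (hcommZ N p S₀ O)) ev hev (MvPolynomial.X j)

theorem resZ_algebraMap (a : O) :
    resZ N p S₀ O 𝔪 ev hev (algebraMap O (TZ N p S₀ O 𝔪) a) = ev (MvPolynomial.C a) :=
  LamRes.resT_algebraMap O 𝔪 (WithOps (tZ N p S₀ O) (hcommZ N p S₀ O)) ev hev a

theorem mem_maximalIdeal_iff (x : TZ N p S₀ O 𝔪) :
    x ∈ maximalIdeal (TZ N p S₀ O 𝔪) ↔ resZ N p S₀ O 𝔪 ev hev x = 0 :=
  Gen.mem_maximalIdeal_iff O 𝔪 (WithOps (tZ N p S₀ O) (hcommZ N p S₀ O)) ev hev x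

/-! ### the traces of the Frobenius elements -/

variable (hpO : (p : O) ∈ maximalIdeal O)

/-- **`t(Frob_r) = T_r`** -/
theorem tT_frob (j : JZ N p S₀) (A : ValuationSubring Qbar) (hA : A.LiesOverPrime (j.1 : ℕ))
    (τ : GQ) (hτ : A.IsFrobeniusAt τ (j.1 : ℕ)) :
    Dens.tT (datumZ N p S₀ O 𝔪 hpO) τ = tZQ N p S₀ O 𝔪 j := by
  apply Subtype.ext
  have hε : eps p O τ = ((j.1 : ℕ) : O) := frob_eps p O j.1.2 j.2.2.1 A hA τ hτ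
  have hes := es_loc O (tZ N p S₀ O) (hcommZ N p S₀ O) 𝔪 (rZ N p O) (rZcomm N p S₀ O) τ j (j.1 : ℕ)
    (esZ N p S₀ O j A hA τ hτ)
  exact (Dens.eq_tr_of_es hε hes).symm

/-- **`t mod 𝔪 = tr rbar`** for EVERY `g` -/
theorem resZ_tT (rbar : ResidualGaloisRep k)
    (hfrob : ∀ (j : JZ N p S₀) (A : ValuationSubring Qbar), A.LiesOverPrime (j.1 : ℕ) →
      ∀ τ : GQ, A.IsFrobeniusAt τ (j.1 : ℕ) →
        LinearMap.charpoly (rbar.ρ τ) =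
          X ^ 2 - C (ev (MvPolynomial.X j)) * X + C (((j.1 : ℕ) : ℕ) : k))
    (g : GQ) :
    resZ N p S₀ O 𝔪 ev hev (Dens.tT (datumZ N p S₀ O 𝔪 hpO) g) =
      LinearMap.trace k rbar.V (rbar.ρ g) := by
  refine Gen.resT_tT' O 𝔪 (WithOps (tZ N p S₀ O) (hcommZ N p S₀ O)) ev hev
    (datumZ N p S₀ O 𝔪 hpO) rbar (fun ℓ hℓ hℓS A hA τ hτ => ?_) g
  have h123 := of_notMem_SgZ N p S₀ hℓ hℓS
  exact ⟨ev (MvPolynomial.X ⟨⟨ℓ, hℓ⟩, h123.1, h123.2.1, h123.2.2⟩),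
    (congrArg (resZ N p S₀ O 𝔪 ev hev)
      (tT_frob N p S₀ O 𝔪 hpO ⟨⟨ℓ, hℓ⟩, h123.1, h123.2.1, h123.2.2⟩ A hA τ hτ)).trans
      (resZ_tZQ N p S₀ O 𝔪 ev hev ⟨⟨ℓ, hℓ⟩, h123.1, h123.2.1, h123.2.2⟩),
    hfrob ⟨⟨ℓ, hℓ⟩, h123.1, h123.2.1, h123.2.2⟩ A hA τ hτ⟩

/-! ### the representation -/

variable [Invertible (2 : O)] [Invertible (2 : k)]

/-- **`ρ₀` EXISTS ON THE LEVEL-ZERO HECKE ALGEBRA, AT THE GIVEN NORMALISATION** -/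
theorem exists_rhoZ (rbar : ResidualGaloisRep k) {c g₀ h₀ : GQ}
    {b : Module.Basis (Fin 2) k rbar.V} (hn : ExistsNorm.Norm rbar c g₀ h₀ b)
    (hc : c * c = 1) (hcyc : eps p O c = -1)
    (hfrob : ∀ (j : JZ N p S₀) (A : ValuationSubring Qbar), A.LiesOverPrime (j.1 : ℕ) →
      ∀ τ : GQ, A.IsFrobeniusAt τ (j.1 : ℕ) →
        LinearMap.charpoly (rbar.ρ τ) =
          X ^ 2 - C (ev (MvPolynomial.X j)) * X + C (((j.1 : ℕ) : ℕ) : k)) :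
    ∃ hin : CH.Input (E := Module.End (TZ N p S₀ O 𝔪) (LamZQ N p S₀ O 𝔪))
      (Dens.rT (datumZ N p S₀ O 𝔪 hpO)) (Dens.tT (datumZ N p S₀ O 𝔪 hpO))
      (Glue.dHom (eps p O) (TZ N p S₀ O 𝔪)) c g₀ h₀,
      IsContMat (TZ N p S₀ O 𝔪) (CH.rep hin) ∧
      ∀ σ : GQ, (CH.rep hin σ).map (resZ N p S₀ O 𝔪 ev hev) =
        LinearMap.toMatrix b b (rbar.ρ σ) :=
  Gen.exists_rho O 𝔪 (WithOps (tZ N p S₀ O) (hcommZ N p S₀ O)) ev hev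
    (datumZ N p S₀ O 𝔪 hpO) rbar hn hc hcyc (resZ_tT N p S₀ O 𝔪 ev hev hpO rbar hfrob)

variable {c g₀ h₀ : GQ}
  (hin : CH.Input (E := Module.End (TZ N p S₀ O 𝔪) (LamZQ N p S₀ O 𝔪))
    (Dens.rT (datumZ N p S₀ O 𝔪 hpO)) (Dens.tT (datumZ N p S₀ O 𝔪 hpO))
    (Glue.dHom (eps p O) (TZ N p S₀ O 𝔪)) c g₀ h₀)

theorem trace_repZ (σ : GQ) : (CH.rep hin σ).trace = Dens.tT (datumZ N p S₀ O 𝔪 hpO) σ :=
  CH.trace_rep hin σ

theorem det_repZ (σ : GQ) :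
    (CH.rep hin σ).det = algebraMap O (TZ N p S₀ O 𝔪) (eps p O σ) :=
  Gen.det_rep O 𝔪 (WithOps (tZ N p S₀ O) (hcommZ N p S₀ O)) (datumZ N p S₀ O 𝔪 hpO) hin σ

/-- the trace of a Frobenius element is the Hecke operator -/
theorem trace_repZ_frob (j : JZ N p S₀) (A : ValuationSubring Qbar)
    (hA : A.LiesOverPrime (j.1 : ℕ)) (τ : GQ) (hτ : A.IsFrobeniusAt τ (j.1 : ℕ)) :
    (CH.rep hin τ).trace = tZQ N p S₀ O 𝔪 j :=
  (trace_repZ N p S₀ O 𝔪 hpO hin τ).trans (tT_frob N p S₀ O 𝔪 hpO j A hA τ hτ)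

/-- `ρ₀` is trivial on the inertia groups at `ℓ ∤ N p` -/
theorem repZ_eq_one_of_inertia {ℓ : ℕ} (hℓ : ℓ.Prime) (hℓN : ¬ ℓ ∣ N) (hℓp : ℓ ≠ p)
    (A : ValuationSubring Qbar) (hA : A.LiesOverPrime ℓ) (σ : GQ)
    (hσ : σ ∈ A.inertiaSubgroupIn ℚ) : CH.rep hin σ = 1 :=
  Gen.rep_eq_one_of_r O 𝔪 (WithOps (tZ N p S₀ O) (hcommZ N p S₀ O)) (datumZ N p S₀ O 𝔪 hpO) hin
    (rZQ_eq_one_of_inertia N p S₀ O 𝔪 hℓ hℓN hℓp A hA σ hσ)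

end Fermat.Agent.S43.Rho.Zero.Main
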