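/-
PROJECT R (S43, row 37), block L1 / level zero, file `Rho/Zero/BridgeFrob` (helper6): THE LEVEL-ZERO
HALF OF `hfrob` (helper21's `RSide/ZeroDatum.trace_of_datum`, `RSide/ZeroBlock`): on the level-zero
module `M0`, made a faithful module over `T0 = TZ N p S₀ O (maxId θ)` by `Rho/Zero/BridgeMod`, the
trace `Dens.tT datumZ τ` of a Frobenius element at `r` acts as the variable `X r` of the polynomial
Hecke algebra (the chief's `Rho/Zero/Main.tT_frob` + `Rho/Zero/Bridge`).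
-/
import Mathlib
import Fermat.Agent.S43.Rho.Zero.BridgeMod
import Fermat.Agent.S43.Rho.Zero.Main

set_option autoImplicit false
set_option linter.unusedSectionVars false

noncomputable section

namespace Fermat.Agent.S43.Rho.Zero.BridgeFrob

open Fermat.Agent.S43.Hecke Fermat.Agent.S43.Hecke.PolyModule Fermat.Agent.S43.Hecke.Loc
open Fermat.Agent.S43.Rho Fermat.Agent.S43.Rho.Lam Fermat.Agent.S43.Rho.Zero.Inst
open Fermat.Agent.S31.Core (Qbar GQ)

/-! ### abstract form -/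

section AbstractFrob

open CongruenceSubgroup ModularCurve ModularCurve.Period Fermat.Agent.S30.Hecke.Parabolic

variable {N : ℕ} (O : Type) [CommRing O] [IsLocalRing O] [Module.IsTorsionFree ℤ O]
  {K : Type} (q : K → ℕ) (hq : ∀ k, (q k).Prime)
  {Λ : Type} [AddCommGroup Λ] [Module O Λ] (tT : K → Module.End O Λ)
  (hT : ∀ i j, Commute (tT i) (tT j))
  (hex : ∃ Φ : Λ ≃ₗ[O] ↥(parabolicHoms O (Gamma0 N) O),
    ∀ k x, Φ (tT k x) = tauPar O O N (q k) (hq k) (Φ x))
  (θ : K → IsLocalRing.ResidueField O) (k₀ : K) (h1 : ((q k₀ : ℕ) : ZMod N) = 1)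
  (hne : θ k₀ ≠ IsLocalRing.residue O ((1 + q k₀ : ℕ) : O))
  {G : Type} (tr : G → T O (maxId θ) (WithOps tT hT)) (IsFr : K → G → Prop)
  (htr : ∀ k τ, IsFr k τ → tr τ = ofP O (maxId θ) (WithOps tT hT) (MvPolynomial.X k))

include hex h1 hne htr in
set_option synthInstance.maxHeartbeats 400000 in
/-- the level-zero module over the Hecke algebra of the localisation of the compared module, with
a family of elements `tr τ` equal to `ofP (X k)` whenever `IsFr k τ` -/
theorem exists_module_M0_frob_abs :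
    ∃ (_ : Module (T O (maxId θ) (WithOps tT hT)) (Main.M0 O q hq N θ))
      (_ : IsScalarTower O (T O (maxId θ) (WithOps tT hT)) (Main.M0 O q hq N θ)),
      (∀ (Q : MvPolynomial K O) (z : Main.M0 O q hq N θ),
        ofP O (maxId θ) (WithOps tT hT) Q • z = Q • z) ∧
      (∀ a : T O (maxId θ) (WithOps tT hT),
        (∀ z : Main.M0 O q hq N θ, a • z = 0) → a = 0) ∧
      ∀ (k : K) (τ : G), IsFr k τ → ∀ z : Main.M0 O q hq N θ,
        tr τ • z = (MvPolynomial.X k : MvPolynomial K O) • z := by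
  obtain ⟨i1, i2, hQ, hfaith⟩ :=
    BridgeMod.exists_module_M0_abs O q hq tT hT hex θ k₀ h1 hne
  refine ⟨i1, i2, hQ, hfaith, fun k τ hkτ z => ?_⟩
  rw [htr k τ hkτ]
  exact hQ _ z

end AbstractFrob

/-! ### level zero -/

section Zero

variable (N : ℕ) [NeZero N] (p : ℕ) [Fact p.Prime] (S₀ : Finset ℕ)
  (O : Type) [CommRing O] [IsLocalRing O] [IsDomain O] [CharZero O] [Algebra ℤ_[p] O]
  [IsNoetherianRing O] [IsAdicComplete (IsLocalRing.maximalIdeal O) O]
  (θ : JZ N p S₀ → IsLocalRing.ResidueField O)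

/-- the Frobenius traces of level zero are the Hecke operators, in the shape the abstract form
consumes -/
theorem tT_frob_ofP (h0 : Nontrivial (LamZQ N p S₀ O (maxId θ)))
    (hpO : (p : O) ∈ IsLocalRing.maximalIdeal O) (j : JZ N p S₀) (τ : GQ)
    (h : ∃ A : ValuationSubring Qbar, A.LiesOverPrime (j.1 : ℕ) ∧ A.IsFrobeniusAt τ (j.1 : ℕ)) :
    Dens.tT (datumZ N p S₀ O (maxId θ) hpO) τ =
      ofP O (maxId θ) (WithOps (tZ N p S₀ O) (hcommZ N p S₀ O)) (MvPolynomial.X j) := by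
  obtain ⟨A, hA, hτ⟩ := h
  exact Zero.Main.tT_frob N p S₀ O (maxId θ) hpO j A hA τ hτ

set_option synthInstance.maxHeartbeats 400000 in
/-- **the level-zero module over `TZ`, with the Frobenius traces**: `M0` is a faithful `TZ`-module,
`O` acts through `TZ`, every polynomial `Q` acts as `Q`, and the trace of a Frobenius element at
`r` acts as `X r` -/
theorem exists_module_M0_frob (j₀ : JZ N p S₀) (h1 : (((j₀.1 : ℕ) : ℕ) : ZMod N) = 1)
    (hne : θ j₀ ≠ IsLocalRing.residue O ((1 + (j₀.1 : ℕ) : ℕ) : O))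
    (h0 : Nontrivial (LamZQ N p S₀ O (maxId θ)))
    (hpO : (p : O) ∈ IsLocalRing.maximalIdeal O) :
    ∃ (_ : Module (TZ N p S₀ O (maxId θ))
        (Main.M0 O (fun j : JZ N p S₀ => (j.1 : ℕ)) (fun j => j.1.2) N θ))
      (_ : IsScalarTower O (TZ N p S₀ O (maxId θ))
        (Main.M0 O (fun j : JZ N p S₀ => (j.1 : ℕ)) (fun j => j.1.2) N θ)),
      (∀ (Q : MvPolynomial (JZ N p S₀) O)
        (z : Main.M0 O (fun j : JZ N p S₀ => (j.1 : ℕ)) (fun j => j.1.2) N θ),
        ofP O (maxId θ) (WithOps (tZ N p S₀ O) (hcommZ N p S₀ O)) Q • z = Q • z) ∧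
      (∀ a : TZ N p S₀ O (maxId θ),
        (∀ z : Main.M0 O (fun j : JZ N p S₀ => (j.1 : ℕ)) (fun j => j.1.2) N θ, a • z = 0) →
          a = 0) ∧
      ∀ (j : JZ N p S₀) (τ : GQ),
        (∃ A : ValuationSubring Qbar, A.LiesOverPrime (j.1 : ℕ) ∧ A.IsFrobeniusAt τ (j.1 : ℕ)) →
        ∀ z : Main.M0 O (fun j : JZ N p S₀ => (j.1 : ℕ)) (fun j => j.1.2) N θ,
          Dens.tT (datumZ N p S₀ O (maxId θ) hpO) τ • z =
            (MvPolynomial.X j : MvPolynomial (JZ N p S₀) O) • z := by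
  have h5 := exists_module_M0_frob_abs O (fun j : JZ N p S₀ => (j.1 : ℕ)) (fun j => j.1.2)
    (tZ N p S₀ O) (hcommZ N p S₀ O) (Bridge.exists_tate_equiv_Z N p S₀ O) θ j₀ h1 hne
    (Dens.tT (datumZ N p S₀ O (maxId θ) hpO))
    (fun (j : JZ N p S₀) (τ : GQ) =>
      ∃ A : ValuationSubring Qbar, A.LiesOverPrime (j.1 : ℕ) ∧ A.IsFrobeniusAt τ (j.1 : ℕ))
    (tT_frob_ofP N p S₀ O θ h0 hpO)
  exact h5

end Zero

end Fermat.Agent.S43.Rho.Zero.BridgeFrob
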