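/-
PROJECT R (S43, row 37), block L1 / level zero, file `Rho/Zero/PackZ` (helper6): **THE `T0` PACKAGE
OF `RSide/StuckR.exists_prime_of_levels` AT LEVEL ZERO**, `T0 := ↥(TZ N p S₀ O (maxId θ))`.

PART A0 (generic: `A` any local `O`-algebra with `res : A →+* ResidueField O`,
`x ∈ 𝔪_A ↔ res x = 0`, `res (algebraMap O A a) = residue O a`; every instance is a variable, so
that the instances of the consumer are picked up by unification):
* `exists_sub_algebraMap_mem_gen` : every element of `A` is congruent to a scalar modulo `𝔪_A` ;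
* `residue_eq_map_res_gen` : `residue A = ResidueField.map (algebraMap O A) ∘ res` ;
* `surjective_residue_comp_gen` : the `hres` of `StuckR` ;
* `mapMat_of_res_gen` : the `hr0` of `StuckR` from residual matrices through `res` ;
* `natCast_mem_maximalIdeal_gen` : the `hpT` of `StuckR`.

PART A (abstract, in the vocabulary of `Rho/Zero/Gen`: `T O m N`): `finite_T`,
`isNoetherianRing_T`, `isIntegral_T`, `isAdicComplete_T`, `natCast_mem_maximalIdeal_T`.

PART B (`Rho/Zero/Inst`; any `𝔪`): `isLocalHom_algebraMap_TZ`, `isNoetherianRing_TZ`,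
`isIntegral_TZ`, `isAdicComplete_TZ`, `natCast_mem_maximalIdeal_TZ` (to be `haveI`-ed);
at `𝔪 := maxId θ`, `ev := evalHom θ`:
* `surjective_residue_comp_TZ` (`hres`), `residue_eq_map_resZ`, `resZ_algebraMap_residue` ;
* `exists_H0` : `H₀ : CH.Input ..` with `IsContMat` and `hr0` in the literal of `StuckR` ;
* `det_repZ_inertia`, `det_repZ_frob` : the `hdetσ`, `hdetΦ` of `StuckR`.

A consumer (`StuckR.exists_prime_of_levels` at `T0 := ↥(TZ ..)`, `r0 := CH.rep H₀`) compiles in
seconds in the instance context of `Rho/Zero/Main`.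
-/
import Mathlib
import Fermat.Agent.S43.Rho.Zero.Main
import Fermat.Agent.S43.Hecke.Loc
import Fermat.Agent.S56.Tan.Cocycle
import Fermat.Prelude.Thm_IsLocalRing_isAdicComplete_of_module_finite

set_option autoImplicit false
set_option linter.unusedSectionVars false
set_option linter.style.haveILetI false

noncomputable section

namespace Fermat.Agent.S43.Rho.Zero.PackZ

open IsLocalRing Polynomial
open Fermat.Agent.S43.Rho.Lam
open Fermat.Agent.S43.Rho
open Fermat.Agent.S31.Core (Qbar GQ smallEnd)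
open Fermat.Agent.S53.Dictionary hiding GQ
open Fermat.Agent.S56.Tan.Cocycle (rbarM rbarM_apply)

attribute [local instance] Glue.smulCommClassT Glue.algebraEnd


/-! ### PART A0: generic (any local `O`-algebra with a residue map to the residue field of `O`) -/

section Generic

variable {O A : Type} [CommRing O] [IsLocalRing O] [CommRing A] [IsLocalRing A] [Algebra O A]
  (res : A →+* ResidueField O)
  (hmem : ∀ x : A, x ∈ maximalIdeal A ↔ res x = 0)
  (hresO : ∀ a : O, res (algebraMap O A a) = residue O a)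

include hmem hresO in
/-- every element of `A` is congruent to a scalar modulo `𝔪_A` -/
theorem exists_sub_algebraMap_mem_gen (x : A) :
    ∃ a : O, residue O a = res x ∧ x - algebraMap O A a ∈ maximalIdeal A := by
  obtain ⟨a, ha⟩ := residue_surjective (res x)
  refine ⟨a, ha, ?_⟩
  rw [hmem, map_sub, hresO, ha, sub_self]

include hmem hresO in
/-- **`residue A = ResidueField.map (algebraMap O A) ∘ res`** -/
theorem residue_eq_map_res_gen [IsLocalHom (algebraMap O A)] (x : A) :
    residue A x = ResidueField.map (algebraMap O A) (res x) := by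
  obtain ⟨a, ha, hmem'⟩ := exists_sub_algebraMap_mem_gen res hmem hresO x
  have h3 := (residue_eq_zero_iff _).mpr hmem'
  rw [map_sub, sub_eq_zero] at h3
  rw [h3, ← ha, ResidueField.map_residue]

include res hmem hresO in
/-- **the residue field of `A` is the one of `O`** (the `hres` of `RSide/StuckR`) -/
theorem surjective_residue_comp_gen : Function.Surjective (residue A ∘ algebraMap O A) := by
  intro z
  obtain ⟨x, rfl⟩ := residue_surjective z
  obtain ⟨a, -, hmem'⟩ := exists_sub_algebraMap_mem_gen res hmem hresO x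
  have h3 := (residue_eq_zero_iff _).mpr hmem'
  rw [map_sub, sub_eq_zero] at h3
  exact ⟨a, h3.symm⟩

include hmem hresO in
/-- **the `hr0` of `RSide/StuckR`** from residual matrices through `res` -/
theorem mapMat_of_res_gen [IsLocalHom (algebraMap O A)] (r0 : GQ →* Mat A)
    (rbar : ResidualGaloisRep (ResidueField O))
    (b : Module.Basis (Fin 2) (ResidueField O) rbar.V)
    (hr : ∀ σ : GQ, (r0 σ).map res = LinearMap.toMatrix b b (rbar.ρ σ))
    (rbarM₀ : GQ →* GL (Fin 2) (ResidueField O))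
    (hb : ∀ g, (rbarM₀ g : Matrix (Fin 2) (Fin 2) (ResidueField O)) =
      LinearMap.toMatrix b b (rbar.ρ g)) :
    mapMat (residue A) r0 = mapMat (ResidueField.map (algebraMap O A)) (rbarM rbarM₀) := by
  ext σ i j
  rw [mapMat_apply, mapMat_apply, rbarM_apply, hb σ, ← hr σ, Matrix.map_apply]
  exact residue_eq_map_res_gen res hmem hresO (r0 σ i j)

/-- the `hpT` of `RSide/StuckR` -/
theorem natCast_mem_maximalIdeal_gen [IsLocalHom (algebraMap O A)] {p : ℕ}
    (hpO : (p : O) ∈ maximalIdeal O) : (p : A) ∈ maximalIdeal A := by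
  have h1 : algebraMap O A (p : O) ∈ maximalIdeal A := by
    rw [mem_maximalIdeal, mem_nonunits_iff] at hpO ⊢
    exact fun hu => hpO (isUnit_of_map_unit (algebraMap O A) _ hu)
  rwa [map_natCast] at h1

end Generic

/-! ### PART A: abstract -/

section Abstract

variable (O : Type) [CommRing O] [IsLocalRing O] [IsNoetherianRing O]
  {P : Type} [CommRing P] [Algebra O P] (m : Ideal P) [m.IsMaximal]
  (N : Type) [AddCommGroup N] [Module O N] [Module P N] [IsScalarTower O P N]
  [Module.Finite O (Loc m N)] [Nontrivial (Loc m N)]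

/-- the Hecke algebra is module-finite over `O` -/
theorem finite_T : Module.Finite O (T O m N) := by
  have h1 : IsNoetherian O (Module.End O (Loc m N)) := isNoetherian_linearMap O (Loc m N) (Loc m N)
  have h2 : IsNoetherian O (Subalgebra.toSubmodule (T O m N)) := isNoetherian_submodule' _
  exact Module.IsNoetherian.finite O (Subalgebra.toSubmodule (T O m N))

theorem isNoetherianRing_T : IsNoetherianRing (T O m N) := by
  haveI := finite_T O m N
  exact IsNoetherianRing.of_finite O (T O m N)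

theorem isIntegral_T : Algebra.IsIntegral O (T O m N) := by
  haveI := finite_T O m N
  exact Algebra.IsIntegral.of_finite O (T O m N)

theorem isAdicComplete_T [IsAdicComplete (maximalIdeal O) O] :
    IsAdicComplete (maximalIdeal (T O m N)) (T O m N) := by
  haveI := finite_T O m N
  haveI : IsLocalHom (algebraMap O (T O m N)) := Gen.isLocalHom_algebraMap_T O m N
  exact IsLocalRing.isAdicComplete_of_module_finite (𝒪 := O)

theorem natCast_mem_maximalIdeal_T {p : ℕ} (hpO : (p : O) ∈ maximalIdeal O) :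
    (p : T O m N) ∈ maximalIdeal (T O m N) := by
  haveI : IsLocalHom (algebraMap O (T O m N)) := Gen.isLocalHom_algebraMap_T O m N
  have h1 : algebraMap O (T O m N) (p : O) ∈ maximalIdeal (T O m N) := by
    rw [mem_maximalIdeal, mem_nonunits_iff] at hpO ⊢
    exact fun hu => hpO (isUnit_of_map_unit (algebraMap O (T O m N)) _ hu)
  rwa [map_natCast] at h1

end Abstract

/-! ### PART B: level zero -/

section Zero

open Fermat.Agent.S43.Hecke Fermat.Agent.S43.Hecke.PolyModule Fermat.Agent.S43.Hecke.Loc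
open Fermat.Agent.S43.Rho.Zero.Inst
open Fermat.Agent.S43.Rho.Feed.Inst (eps cont_eps frob_eps)

attribute [local instance] Gen.invertibleTwoT

variable (N : ℕ) [NeZero N] (p : ℕ) [hp : Fact p.Prime] (S₀ : Finset ℕ)
  (O : Type) [CommRing O] [Algebra ℤ_[p] O] [IsLocalRing O] [IsNoetherianRing O]
  [IsAdicComplete (maximalIdeal O) O]

section anyIdeal

variable (𝔪 : Ideal (MvPolynomial (JZ N p S₀) O)) [𝔪.IsMaximal]
  [Nontrivial (LamZQ N p S₀ O 𝔪)]

theorem isLocalHom_algebraMap_TZ : IsLocalHom (algebraMap O (TZ N p S₀ O 𝔪)) :=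
  Gen.isLocalHom_algebraMap_T O 𝔪 (WithOps (tZ N p S₀ O) (hcommZ N p S₀ O))

theorem isNoetherianRing_TZ : IsNoetherianRing (TZ N p S₀ O 𝔪) :=
  IsNoetherianRing.of_finite O (TZ N p S₀ O 𝔪)

theorem isIntegral_TZ : Algebra.IsIntegral O (TZ N p S₀ O 𝔪) :=
  Algebra.IsIntegral.of_finite O (TZ N p S₀ O 𝔪)

theorem isAdicComplete_TZ :
    IsAdicComplete (maximalIdeal (TZ N p S₀ O 𝔪)) (TZ N p S₀ O 𝔪) := by
  haveI : IsLocalHom (algebraMap O (TZ N p S₀ O 𝔪)) := isLocalHom_algebraMap_TZ N p S₀ O 𝔪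
  exact IsLocalRing.isAdicComplete_of_module_finite (𝒪 := O)

theorem natCast_mem_maximalIdeal_TZ (hpO : (p : O) ∈ maximalIdeal O) :
    (p : TZ N p S₀ O 𝔪) ∈ maximalIdeal (TZ N p S₀ O 𝔪) := by
  haveI : IsLocalHom (algebraMap O (TZ N p S₀ O 𝔪)) := isLocalHom_algebraMap_TZ N p S₀ O 𝔪
  exact natCast_mem_maximalIdeal_gen hpO

end anyIdeal

variable (θ : JZ N p S₀ → ResidueField O) [Nontrivial (LamZQ N p S₀ O (maxId θ))]

/-- the residue map of `Rho/Zero/Main` at `𝔪 = maxId θ` sends scalars to their residues -/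
theorem resZ_algebraMap_residue (a : O) :
    Main.resZ N p S₀ O (maxId θ) (evalHom θ) rfl (algebraMap O (TZ N p S₀ O (maxId θ)) a) =
      residue O a :=
  (Main.resZ_algebraMap N p S₀ O (maxId θ) (evalHom θ) rfl a).trans (evalHom_C θ a)

/-- **the `hres` of `RSide/StuckR` at level zero** -/
theorem surjective_residue_comp_TZ :
    Function.Surjective (residue (TZ N p S₀ O (maxId θ)) ∘
      algebraMap O (TZ N p S₀ O (maxId θ))) := by
  have hm := Main.mem_maximalIdeal_iff N p S₀ O (maxId θ) (evalHom θ) rfl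
  have ha := resZ_algebraMap_residue N p S₀ O θ
  have h6 := surjective_residue_comp_gen (Main.resZ N p S₀ O (maxId θ) (evalHom θ) rfl) hm ha
  exact h6

/-- `residue TZ = ResidueField.map (algebraMap O TZ) ∘ resZ` -/
theorem residue_eq_map_resZ [IsLocalHom (algebraMap O (TZ N p S₀ O (maxId θ)))]
    (x : TZ N p S₀ O (maxId θ)) :
    residue (TZ N p S₀ O (maxId θ)) x =
      ResidueField.map (algebraMap O (TZ N p S₀ O (maxId θ)))
        (Main.resZ N p S₀ O (maxId θ) (evalHom θ) rfl x) := by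
  have hm := Main.mem_maximalIdeal_iff N p S₀ O (maxId θ) (evalHom θ) rfl
  have ha := resZ_algebraMap_residue N p S₀ O θ
  have h6 := residue_eq_map_res_gen (Main.resZ N p S₀ O (maxId θ) (evalHom θ) rfl) hm ha x
  exact h6

variable (hpO : (p : O) ∈ maximalIdeal O) [Invertible (2 : O)]

/-- **`H₀`, `hcont`, `hr0` OF `RSide/StuckR` AT LEVEL ZERO** (`Rho/Zero/Main.exists_rhoZ` in the
literal of `StuckR.exists_prime_of_levels`) -/
theorem exists_H0 [IsLocalHom (algebraMap O (TZ N p S₀ O (maxId θ)))]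
    (rbar : ResidualGaloisRep (ResidueField O)) {c g₀ h₀ : GQ}
    {b : Module.Basis (Fin 2) (ResidueField O) rbar.V} (hn : ExistsNorm.Norm rbar c g₀ h₀ b)
    (hc : c * c = 1) (hcyc : eps p O c = -1)
    (hfrob : ∀ (j : JZ N p S₀) (A : ValuationSubring Qbar), A.LiesOverPrime (j.1 : ℕ) →
      ∀ τ : GQ, A.IsFrobeniusAt τ (j.1 : ℕ) →
        LinearMap.charpoly (rbar.ρ τ) =
          X ^ 2 - C (θ j) * X + C (((j.1 : ℕ) : ℕ) : ResidueField O))
    (rbarM₀ : GQ →* GL (Fin 2) (ResidueField O))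
    (hb : ∀ g, (rbarM₀ g : Matrix (Fin 2) (Fin 2) (ResidueField O)) =
      LinearMap.toMatrix b b (rbar.ρ g)) :
    ∃ hin : CH.Input (E := Module.End (TZ N p S₀ O (maxId θ)) (LamZQ N p S₀ O (maxId θ)))
      (Dens.rT (datumZ N p S₀ O (maxId θ) hpO)) (Dens.tT (datumZ N p S₀ O (maxId θ) hpO))
      (Glue.dHom (eps p O) (TZ N p S₀ O (maxId θ))) c g₀ h₀,
      IsContMat (TZ N p S₀ O (maxId θ)) (CH.rep hin) ∧
      mapMat (residue (TZ N p S₀ O (maxId θ))) (CH.rep hin) =
        mapMat (ResidueField.map (algebraMap O (TZ N p S₀ O (maxId θ)))) (rbarM rbarM₀) := by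
  letI : Invertible (2 : ResidueField O) :=
    (Invertible.map (residue O) (2 : O)).copy 2 (map_ofNat (residue O) 2).symm
  have hfrob' : ∀ (j : JZ N p S₀) (A : ValuationSubring Qbar), A.LiesOverPrime (j.1 : ℕ) →
      ∀ τ : GQ, A.IsFrobeniusAt τ (j.1 : ℕ) →
        LinearMap.charpoly (rbar.ρ τ) =
          X ^ 2 - C (evalHom θ (MvPolynomial.X j)) * X + C (((j.1 : ℕ) : ℕ) : ResidueField O) := by
    intro j A hA τ hτ
    rw [evalHom_X]
    exact hfrob j A hA τ hτ
  have h5 := Main.exists_rhoZ N p S₀ O (maxId θ) (evalHom θ) rfl hpO rbar hn hc hcyc hfrob'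
  obtain ⟨hin, h1, h2⟩ := h5
  have hm := Main.mem_maximalIdeal_iff N p S₀ O (maxId θ) (evalHom θ) rfl
  have ha := resZ_algebraMap_residue N p S₀ O θ
  have h6 := mapMat_of_res_gen (Main.resZ N p S₀ O (maxId θ) (evalHom θ) rfl) hm ha (CH.rep hin)
    rbar b h2 rbarM₀ hb
  exact ⟨hin, h1, h6⟩

variable {c g₀ h₀ : GQ}
  (hin : CH.Input (E := Module.End (TZ N p S₀ O (maxId θ)) (LamZQ N p S₀ O (maxId θ)))
    (Dens.rT (datumZ N p S₀ O (maxId θ) hpO)) (Dens.tT (datumZ N p S₀ O (maxId θ) hpO))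
    (Glue.dHom (eps p O) (TZ N p S₀ O (maxId θ))) c g₀ h₀)

/-- **the `hdetσ` of `RSide/StuckR`** : the determinant is `1` on the inertia groups at `ℓ ≠ p` -/
theorem det_repZ_inertia {ℓ : ℕ} (hℓ : ℓ.Prime) (hℓp : ℓ ≠ p) (A : ValuationSubring Qbar)
    (hA : A.LiesOverPrime ℓ) (σ : GQ) (hσ : σ ∈ A.inertiaSubgroupIn ℚ) :
    (CH.rep hin σ).det = 1 := by
  have h0 := Main.det_repZ N p S₀ O (maxId θ) hpO hin σ
  have h1 : eps p O σ = 1 :=
    Fermat.Agent.S30.Algebra.Cyclotomic.cycChar_inertia p (algebraMap ℤ_[p] O) hℓ hℓp A hA σ hσ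
  exact h0.trans ((congrArg (algebraMap O (TZ N p S₀ O (maxId θ))) h1).trans (map_one _))

/-- **the `hdetΦ` of `RSide/StuckR`** : the determinant of a Frobenius element at `ℓ ≠ p` is the
square of a square root of `ℓ` -/
theorem det_repZ_frob {ℓ : ℕ} (hℓ : ℓ.Prime) (hℓp : ℓ ≠ p) (A : ValuationSubring Qbar)
    (hA : A.LiesOverPrime ℓ) (φ : GQ) (hφ : A.IsFrobeniusAt φ ℓ) (s : O) (hs : s ^ 2 = (ℓ : O)) :
    (CH.rep hin φ).det = algebraMap O (TZ N p S₀ O (maxId θ)) s ^ 2 := by
  have h0 := Main.det_repZ N p S₀ O (maxId θ) hpO hin φ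
  have h1 : eps p O φ = s ^ 2 := (frob_eps p O hℓ hℓp A hA φ hφ).trans hs.symm
  exact h0.trans ((congrArg (algebraMap O (TZ N p S₀ O (maxId θ))) h1).trans (map_pow _ _ _))

end Zero

end Fermat.Agent.S43.Rho.Zero.PackZ
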